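import Fermat.Agent.S55.D.Ar.Kum
import Fermat.Agent.S55.B.Loc
import Fermat.Agent.S55.G.LocIf

/-!
# S55 / layer D-AR : the dictionary  (prime `v`, `g ∈ GQ`)  ↦  place `plc F v g` of the number field `F ⊆ ℚ̄`

`F : IntermediateField ℚ Qb`, `emb F g : F →ₐ[ℚ] Qb`, `x ↦ g x`;  `plc F v g` is THE place `w` of `F` with `S14.Br.Over (emb F g) (primeLocalPlace v) w`, i.e.
`x ∈ w.asIdeal ↔ g x ∈ (primeLocalPlace v).nonunits` for `x : 𝓞 F`  (`B.exists_place`).

## key S55/D-AR-PLC1 : `over_unique`, `plc_mul`, `tame_plc`, `exists_plc`, `finite_plc`  (~150 lines)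
`over_unique`: `HeightOneSpectrum.ext`, `Ideal.ext`.   `plc_mul`: `over_unique (plc_spec ..)`: `(d g h) x = d (g x)` for `x ∈ F`, and `d y ∈ A.nonunits ↔ y ∈ A.nonunits` for `d ∈ Dq v`
(`B.GT_zero_iff_mem_nonunits` + `B.pres_Dq`).   `tame_plc`: if `(p : 𝓞 F) ∈ w.asIdeal` then `(p : Qb) ∈ nonunits`, i.e. `w_v p > 0`; but `w_v p = 0` for `v ≠ p` (`B.w_natCast_eq_zero`, `B.wq_q`).
`exists_plc`: `B.exists_embedding w` gives `v`, `j`; `G.exists_extend F j` gives `g` with `g x = j x`; `over_unique`.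
`finite_plc`: `g ↦ plc F v g` factors through `GQ ⧸ F.fixingSubgroup` (finite: `E.finiteIndex_fixingSubgroup`), by `plc_mul` with `d = 1`.
## key S55/D-AR-PLC2 : `plc_inj`  (~100 lines)
`Over (emb F g) A w ↔ Over F.val (g⁻¹ • A) w` (`E.smul_mem_nonunits_iff` or `ValuationSubring.mem_nonunits...`).  `v = v'`: `Over.exists_prime`/both `v` and `v'` lie in `w.asIdeal`; two different primes are coprime
(see `G.plcRel_inj`, key G-PLC-c of helper20: same argument).  `G.exists_smul_of_over F (g⁻¹ • A) (g'⁻¹ • A) w` gives `h ∈ Fix F`, `h • g⁻¹ • A = g'⁻¹ • A`;  `d := g' h g⁻¹` satisfies `d • A = A`, i.e. `d ∈ Dq v`;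
`g' = d * g * h⁻¹`.
## key S55/D-AR-PLC3 : `exists_w_eq`, `mem_Fx_HH`, `GE_of_mem_Ulev`  (~80 lines)
`exists_w_eq`: `ϖ` with `ord w ϖ = 1` (`S14.exists_ord_eq {w} 1`), `e = w_v (g ϖ)`, `B.Over.w_eq`, `B.Over.w_pos`.   `GE_of_mem_Ulev`: `B.Over.mem_Ulev_iff` with the same `ϖ`
(so state both with one `e`: `exists_w_eq` returns all three properties).
-/

set_option autoImplicit false

noncomputable section

namespace Fermat.Agent.S55.D

open ExtCitation T Fermat.Agent.S05 Fermat.Agent.S14 NumberField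

variable (F : IntermediateField ℚ Qb)

/-- the embedding `x ↦ g x` of `F` -/
def emb (g : GQ) : F →ₐ[ℚ] Qb := (g : Qb →ₐ[ℚ] Qb).comp F.val

@[simp] theorem emb_apply (g : GQ) (x : F) : emb F g x = g (x : Qb) := rfl

variable [NumberField F]

/-- the place of `F` induced by `primeLocalPlace v` through `x ↦ g x` -/
def plc (v : Nat.Primes) (g : GQ) : Pl F := (B.exists_place v (emb F g)).choose

theorem plc_spec (v : Nat.Primes) (g : GQ) : Br.Over (emb F g) (primeLocalPlace v) (plc F v g) :=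
  (B.exists_place v (emb F g)).choose_spec

variable {F}

/-- [S55/D-AR-PLC1] -/
theorem over_unique {j : F →ₐ[ℚ] Qb} {A : ValuationSubring Qb} {w w' : Pl F} (h : Br.Over j A w)
    (h' : Br.Over j A w') : w = w' := by
  apply IsDedekindDomain.HeightOneSpectrum.ext
  ext x
  rw [h x, h' x]

open scoped Pointwise in
theorem plcAux_mem_nonunits_iff {v : Nat.Primes} {d : GQ} (hd : d ∈ Dq v) (y : Qb) :
    d y ∈ (primeLocalPlace v).nonunits ↔ y ∈ (primeLocalPlace v).nonunits := by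
  have h1 : d • primeLocalPlace v = primeLocalPlace v := hd
  have h2 := E.smul_mem_nonunits_iff (primeLocalPlace v) d y
  rwa [h1] at h2

open scoped Pointwise in
theorem plcAux_over {A : ValuationSubring Qb} {g : GQ} {w : Pl F} (h : Br.Over (emb F g) A w) :
    Br.Over F.val (g⁻¹ • A) w := by
  intro x
  rw [h x, emb_apply]
  have h2 := E.smul_mem_nonunits_iff A g⁻¹ (g ((x : F) : Qb))
  rw [B.inv_apply_apply] at h2
  exact h2.symm

theorem plcAux_natCast_mem {A : ValuationSubring Qb} {w : Pl F} (h : Br.Over F.val A w) {l : ℕ}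
    (hl : A.LiesOverPrime l) : (l : 𝓞 F) ∈ w.asIdeal := by
  rw [h]
  simpa [ValuationSubring.LiesOverPrime] using hl

/-- [S55/D-AR-PLC1] -/
theorem plc_mul {v : Nat.Primes} {d h : GQ} (hd : d ∈ Dq v) (hh : h ∈ F.fixingSubgroup) (g : GQ) :
    plc F v (d * g * h) = plc F v g := by
  refine over_unique (plc_spec F v (d * g * h)) fun x => ?_
  rw [plc_spec F v g x, emb_apply, emb_apply, AlgEquiv.mul_apply, AlgEquiv.mul_apply,
    (IntermediateField.mem_fixingSubgroup_iff _ _).1 hh _ (x : F).2]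
  exact (plcAux_mem_nonunits_iff hd _).symm

open scoped Pointwise in
/-- [S55/D-AR-PLC2] **(ORB)** -/
theorem plc_inj {v v' : Nat.Primes} {g g' : GQ} (h : plc F v g = plc F v' g') :
    v = v' ∧ ∃ d ∈ Dq v, ∃ h ∈ F.fixingSubgroup, g' = d * g * h := by
  have hA := plcAux_over (plc_spec F v g)
  have hA' := plcAux_over (plc_spec F v' g')
  rw [← h] at hA'
  have hvv : v = v' := by
    by_contra hne
    have h1 := plcAux_natCast_mem hA
      (E.liesOverPrime_smul (D.liesOverPrime_primeLocalPlace v) g⁻¹)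
    have h2 := plcAux_natCast_mem hA'
      (E.liesOverPrime_smul (D.liesOverPrime_primeLocalPlace v') g'⁻¹)
    have hco : IsCoprime ((v : ℕ) : ℤ) ((v' : ℕ) : ℤ) :=
      Nat.isCoprime_iff_coprime.mpr ((Nat.coprime_primes v.2 v'.2).mpr
        (fun h => hne (Subtype.ext h)))
    obtain ⟨a, b, hab⟩ := hco
    have h3 : (1 : 𝓞 F) ∈ (plc F v g).asIdeal := by
      have h4 : ((a : 𝓞 F) * ((v : ℕ) : 𝓞 F) + (b : 𝓞 F) * ((v' : ℕ) : 𝓞 F)) = 1 := by
        exact_mod_cast congrArg (Int.cast : ℤ → 𝓞 F) hab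
      rw [← h4]
      exact Ideal.add_mem _ (Ideal.mul_mem_left _ _ h1) (Ideal.mul_mem_left _ _ h2)
    exact (plc F v g).isPrime.ne_top ((Ideal.eq_top_iff_one _).mpr h3)
  subst hvv
  refine ⟨rfl, ?_⟩
  obtain ⟨k, hkF, hk⟩ := G.exists_smul_of_over F _ _ _ hA hA'
  have hd : g' * k * g⁻¹ ∈ Dq v := by
    change (g' * k * g⁻¹) • primeLocalPlace v = primeLocalPlace v
    rw [mul_smul, mul_smul, hk, smul_inv_smul]
  refine ⟨_, hd, k⁻¹, Subgroup.inv_mem _ hkF, ?_⟩
  group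

/-- [S55/D-AR-PLC1] -/
theorem exists_plc (w : Pl F) : ∃ v g, plc F v g = w := by
  obtain ⟨v, j, hj⟩ := B.exists_embedding w
  obtain ⟨g, hg⟩ := G.exists_extend F j
  refine ⟨v, g, over_unique (plc_spec F v g) ?_⟩
  have e : emb F g = j := AlgHom.ext fun x => hg x
  rw [e]
  exact hj

/-- [S55/D-AR-PLC1] -/
theorem finite_plc (v : Nat.Primes) : {w : Pl F | ∃ g, plc F v g = w}.Finite := by
  have hfi : F.fixingSubgroup.FiniteIndex := E.finiteIndex_fixingSubgroup F inferInstance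
  refine (Set.finite_range (fun c : GQ ⧸ F.fixingSubgroup => plc F v c.out)).subset ?_
  rintro _ ⟨g, rfl⟩
  refine ⟨(g : GQ ⧸ F.fixingSubgroup), ?_⟩
  obtain ⟨h, hh⟩ := QuotientGroup.mk_out_eq_mul F.fixingSubgroup g
  change plc F v (Quotient.out (g : GQ ⧸ F.fixingSubgroup)) = _
  rw [hh]
  have := plc_mul (F := F) (v := v) (Subgroup.one_mem _) h.2 g
  rwa [one_mul] at this

/-- [S55/D-AR-PLC1] -/
theorem tame_plc (p : ℕ) [Fact p.Prime] {v : Nat.Primes} (hv : v ≠ pPrime p) (g : GQ) :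
    Tame p (plc F v g) := by
  intro hmem
  have h1 := (plc_spec F v g _).1 hmem
  have h2 : emb F g (((p : 𝓞 F) : 𝓞 F) : F) = (p : Qb) := by simp
  rw [h2, ← B.GT_zero_iff_mem_nonunits] at h1
  have hp : p.Prime := Fact.out
  have hp0 : (p : Qb) ≠ 0 := by exact_mod_cast hp.ne_zero
  have h3 : ¬ (v : ℕ) ∣ p := by
    intro hdvd
    apply hv
    apply Subtype.ext
    exact (Nat.prime_dvd_prime_iff_eq v.2 hp).1 hdvd
  have h4 := B.w_natCast_eq_zero (v := B.wq v) v.2 (by rw [B.wq_q]; exact one_pos) h3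
  have := h1.lt_w hp0
  linarith

/-- [S55/D-AR-PLC3] the valuation `w_v ∘ g` on `F` is `e * ord_w` -/
theorem exists_w_eq (v : Nat.Primes) (g : GQ) : ∃ e : ℝ, 0 < e ∧
    (∀ x : Fˣ, (B.wq v).w (g ((x : F) : Qb)) = ord (plc F v g) x * e) ∧
    ∀ (x : Fˣ) (n : ℕ), 0 < n → x ∈ Ulev (plc F v g) n →
      (B.wq v).GE (g ((x : F) : Qb) - 1) (n * e) := by
  obtain ⟨ϖ, hϖ'⟩ := exists_ord_eq ({plc F v g} : Finset (Pl F)) (fun _ => 1)
  have hϖ : ord (plc F v g) ϖ = 1 := hϖ' _ (Finset.mem_singleton_self _)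
  refine ⟨(B.wq v).w (emb F g ϖ), B.Over.w_pos (plc_spec F v g) hϖ,
    fun x => B.Over.w_eq (plc_spec F v g) hϖ x, fun x n hn hx => ?_⟩
  exact (B.Over.mem_Ulev_iff (plc_spec F v g) hϖ x hn).1 hx

/-- [S55/D-AR-PLC3] -/
theorem mem_Fx_HH {v : Nat.Primes} {g : GQ} {x : Qb}
    (hx : ∀ d ∈ Dq v, g⁻¹ * d * g ∈ F.fixingSubgroup → d x = x) : x ∈ B.Fx (B.HH v (emb F g)) := by
  refine B.mem_Fx.2 fun σ hσ => ?_
  obtain ⟨h1, h2⟩ := (B.mem_HH v (emb F g)).1 hσ
  refine hx σ h1 ?_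
  rw [IntermediateField.mem_fixingSubgroup_iff]
  intro y hy
  have := h2 ⟨y, hy⟩
  rw [emb_apply] at this
  rw [AlgEquiv.mul_apply, AlgEquiv.mul_apply, this, B.inv_apply_apply]

variable (F)

/-- the places of `F` over a finite set of primes -/
def SF (S : Finset Nat.Primes) : Finset (Pl F) :=
  (S.finite_toSet.biUnion fun v _ => finite_plc (F := F) v).toFinset

variable {F}

theorem mem_SF {S : Finset Nat.Primes} {w : Pl F} : w ∈ SF F S ↔ ∃ v ∈ S, ∃ g, plc F v g = w := by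
  simp [SF]

theorem plc_mem_SF_iff {S : Finset Nat.Primes} {v : Nat.Primes} {g : GQ} :
    plc F v g ∈ SF F S ↔ v ∈ S := by
  rw [mem_SF]
  constructor
  · rintro ⟨v', hv', g', h⟩
    rw [← (plc_inj h).1]
    exact hv'
  · exact fun h => ⟨v, h, g, rfl⟩

theorem mem_SF_of_not_tame {p : ℕ} [Fact p.Prime] {S : Finset Nat.Primes} (hpS : pPrime p ∈ S)
    (w : Pl F) (hw : ¬ Tame p w) : w ∈ SF F S := by
  obtain ⟨v, g, rfl⟩ := exists_plc w
  rw [plc_mem_SF_iff]
  by_contra hv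
  exact hw (tame_plc p (fun h : v = pPrime p => hv (by rw [h]; exact hpS)) g)

end Fermat.Agent.S55.D
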