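import Fermat.Agent.S55.D.Ar.Kum

/-!
# S55 / layer D-AR : local lemmas (no number field involved)

## key S55/D-AR-INERT : `apply_eq_of_pow_fixed`  (~30 lines)
`y` a unit at `q`, `q ∤ n`, `i ∈ Iq q`, `i (y^n) = y^n`.  `ζ' = i y / y`, `ζ'^n = 1`; `w (i y - y) > 0` (`B.GT_of_mem_Iq`, `y` integral), so `w (ζ' - 1) > 0 = w n`
(`B.w_natCast_eq_zero`, `B.wq_q`); `B.eq_one_of_pow_eq_one` (or directly `B.eq_of_pow_eq_one` is for roots of unity only; use `ζ'`).
## key S55/D-AR-A1 : `kumL_mem_H1ur`  (~80 lines)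
`kumL = delta0 ((kumData_D p v).ses.fn _) _`; `exists_delta0_eq` gives `c : Sg → Additive Qbˣ`, `z ∈ Z¹`, `post (mulP) c = b` (so `c(s)^p = b(s)`), `post iotaZ (z d) = d • c - c`,
`kumL b = H1.mk z`.  For `i ∈ IqD v`: `π i = 1` (`Iq_le_of_mem_lvlS`, `hπS`), so `(i • c)(s) = i (c s)`, and `i (c s) = c s` by `apply_eq_of_pow_fixed` (`n = p`, `v ≠ p` as `v ∉ S ∋ p`;
`w (c s) = w (b s) / p = 0`; `i (b s) = b (π i s) = b s`).  So `post iotaZ (z i) = 0`, `z i = 0` (`SES.inj`).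
## key S55/D-AR-HENS : `exists_nsmul_of_close`  (~70 lines)
`B.exists_root_aux` gives for every `s` a `c s` with `(c s)^p = vl b s`, `w (c s - 1) > w p`; `B.root_unique` + `B.pres_Dq` show `c (π d s) = d (c s)`; `ofVl`; `vl_ext`.
## key S55/D-AR-ORB : `exists_of_orbit`  (~60 lines)
Choose a representative `r s` in each orbit (`MulAction.orbitRel` for the action through `π'`, or: `Classical.choice` on the relation `∃ g, π' g s = t`; e.g. `r s := (Quotient.out ..)`), `g_s` with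
`π' g_s (r s) = s`, `x_t` from `hex t`; `f s := α g_s (x_(r s))`.  Equivariance: `r (π' g s) = r s`, `g_(π' g s)⁻¹ g g_s` fixes `r s`, hence `x_(r s)`.
-/

set_option autoImplicit false

noncomputable section

namespace Fermat.Agent.S55.D

open ExtCitation T Fermat.Agent.S05

/-- [S55/D-AR-INERT] inertia fixes the `n`-th roots of the units it fixes (`q ∤ n`) -/
theorem apply_eq_of_pow_fixed {q : Nat.Primes} {n : ℕ} (hn : ¬ (q : ℕ) ∣ n) {y : Qb}
    (hy : (B.wq q).EQ y 0) {i : GQ} (hi : i ∈ Iq q) (h : i (y ^ n) = y ^ n) : i y = y := by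
  have hn0 : 0 < n := B.inerAux_pos q hn
  have hy0 : y ≠ 0 := hy.ne_zero
  have h1 : (i y / y) ^ n = 1 := by
    rw [div_pow, ← map_pow, h, div_self (pow_ne_zero _ hy0)]
  have h2 : (B.wq q).GT (i y - y) 0 := B.GT_of_mem_Iq q hi (hy.GE le_rfl)
  have h3 : (B.wq q).GT (i y / y - 1) ((B.wq q).w ((n : ℕ) : Qb)) := by
    rw [B.w_natCast_eq_zero q.2 (B.inerAux_wq_pos q) hn]
    have e : (i y / y - 1) * y = i y - y := by field_simp
    have := RVal.GT.of_mul_eq_left e hy h2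
    simpa using this
  have h4 := B.eq_one_of_pow_eq_one hn0 h1 h3
  rwa [div_eq_one_iff_eq hy0] at h4

/-- [S55/D-AR-ORB] construction of invariant functions orbit by orbit -/
theorem exists_of_orbit {G' : Type*} [Group G'] {α : G' →* RingAut Qb} {Sg : Type*}
    {π' : G' →* Equiv.Perm Sg} (P : Sg → Qb → Prop)
    (hP : ∀ g s x, P s x → P (π' g s) (α g x))
    (hex : ∀ s, ∃ x, x ≠ 0 ∧ (∀ g, π' g s = s → α g x = x) ∧ P s x) :
    ∃ c : ↥(H0 (Fn π' (gm α))), ∀ s, P s (vl c s) := by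
  classical
  -- the orbit relation
  let r : Setoid Sg :=
    { r := fun s t => ∃ g, π' g s = t
      iseqv :=
        ⟨fun s => ⟨1, by simp⟩,
         fun {s t} ⟨g, hg⟩ => ⟨g⁻¹, by rw [← hg, map_inv]; simp⟩,
         fun {s t u} ⟨g, hg⟩ ⟨h, hh⟩ => ⟨h * g, by rw [map_mul, Equiv.Perm.mul_apply, hg, hh]⟩⟩ }
  let rep : Sg → Sg := fun s => (Quotient.mk r s).out
  have hrep : ∀ s, ∃ g, π' g (rep s) = s := fun s => Quotient.exact (Quotient.out_eq (Quotient.mk r s))
  have hrep' : ∀ g s, rep (π' g s) = rep s := fun g s => by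
    have : Quotient.mk r (π' g s) = Quotient.mk r s := Quotient.sound (r.symm ⟨g, rfl⟩)
    simp only [rep, this]
  choose γ hγ using hrep
  choose x hx0 hxfix hxP using hex
  have key : ∀ (t : Sg) (g h : G'), π' g t = π' h t → α g (x t) = α h (x t) := by
    intro t g h hgh
    have h1 : π' (h⁻¹ * g) t = t := by
      rw [map_mul, Equiv.Perm.mul_apply, hgh, map_inv]; simp
    have h2 := hxfix t _ h1
    rw [map_mul, RingAut.mul_apply] at h2
    have h3 := congrArg (α h) h2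
    rw [← RingAut.mul_apply, ← map_mul, mul_inv_cancel, map_one, RingAut.one_apply] at h3
    exact h3
  refine ⟨ofVl (fun s => α (γ s) (x (rep s))) (fun s => ?_) (fun g s => ?_), fun s => ?_⟩
  · exact (map_ne_zero_iff _ (α (γ s)).injective).2 (hx0 _)
  · show α (γ (π' g s)) (x (rep (π' g s))) = α g (α (γ s) (x (rep s)))
    rw [hrep' g s, ← RingAut.mul_apply, ← map_mul]
    apply key
    rw [map_mul, Equiv.Perm.mul_apply, hγ s]
    have := hγ (π' g s)
    rwa [hrep' g s] at this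
  · rw [vl_ofVl]
    have := hP (γ s) (rep s) _ (hxP (rep s))
    rwa [hγ s] at this

variable {p : ℕ} [Fact p.Prime] {Sg : Type*} [Finite Sg] {π : GQ →* Equiv.Perm Sg}

/-- [S55/D-AR-A1] **(A1)** the Kummer class of a unit is unramified -/
theorem kumL_mem_H1ur {S : Finset Nat.Primes} (hpS : pPrime p ∈ S) (hπS : SmoothSet π (lvlS S))
    (hπ : SmoothSet π lvlQ) {v : Nat.Primes} (hv : v ∉ S) (b : EL π v)
    (hb : ∀ s, (B.wq v).w (vl b s) = 0) :
    kumL p hπ v b ∈ H1ur v (rv Dq (Fn π (rhoT p)) v) := by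
  have hp : p.Prime := Fact.out
  obtain ⟨c, z, hc, hz, h⟩ := exists_delta0_eq (𝓛 := lvlD v)
    ((kumData_D p v).ses.fn (π.comp (Dq v).subtype))
    (smooth_Fn (galAct_D v).smooth_gm (hπ.comap (Dq v).subtype)) b
  refine ⟨z, h.symm, fun i hi => ?_⟩
  have hvp : ¬ (v : ℕ) ∣ p := by
    intro hd
    have h1 : (v : ℕ) = p := (Nat.prime_dvd_prime_iff_eq v.2 hp).1 hd
    exact hv ((Subtype.ext h1 : v = pPrime p) ▸ hpS)
  have hπi : π (i : GQ) = 1 := by
    obtain ⟨U, hU, hu⟩ := hπS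
    exact hu _ (Iq_le_of_mem_lvlS hU hv (mem_IqD.1 hi))
  apply ((kumData_D p v).ses.fn (π.comp (Dq v).subtype)).inj
  rw [hz i, map_zero, sub_eq_zero]
  funext s
  rw [Fn_apply]
  have h1 : ((π.comp (Dq v).subtype) i)⁻¹ s = s := by
    change (π (i : GQ))⁻¹ s = s
    rw [hπi]; rfl
  rw [h1]
  apply Additive.toMul.injective
  apply Units.ext
  change (i : GQ) (((c s).toMul : Qbˣ) : Qb) = (((c s).toMul : Qbˣ) : Qb)
  have hcs : (((c s).toMul : Qbˣ) : Qb) ^ p = vl b s := by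
    have := congrFun hc s
    have h2 : p • c s = b.1 s := this
    unfold vl
    rw [← h2, toMul_nsmul, Units.val_pow_eq_pow_val]
  have hy0 : (((c s).toMul : Qbˣ) : Qb) ≠ 0 := Units.ne_zero _
  refine apply_eq_of_pow_fixed hvp ⟨hy0, ?_⟩ (mem_IqD.1 hi) ?_
  · have h3 := hb s
    rw [← hcs, RVal.w_pow hy0] at h3
    rcases mul_eq_zero.1 h3 with h4 | h4
    · exact absurd (Nat.cast_eq_zero.1 h4) hp.ne_zero
    · exact h4
  · rw [hcs]
    have h5 := vl_applyL b i.2 s
    rw [hπi] at h5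
    exact h5.symm

omit [Finite Sg] in
/-- [S55/D-AR-HENS] (Hensel) functions close to `1` are `p`-th powers -/
theorem exists_nsmul_of_close (v : Nat.Primes) (b : EL π v)
    (hb : ∀ s, (B.wq v).GT (vl b s - 1) (2 * (B.wq v).w ((p : ℕ) : Qb))) :
    ∃ c : EL π v, p • c = b := by
  have hp : p.Prime := Fact.out
  choose c hc hc1 using fun s => B.exists_root_aux hp.pos (hb s)
  have hc0 : ∀ s, c s ≠ 0 := fun s h0 => by
    have := hc s
    rw [h0, zero_pow hp.ne_zero] at this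
    exact vl_ne_zero b s this.symm
  refine ⟨ofVl c hc0 (fun g s => ?_), vl_ext fun s => ?_⟩
  · change c (π (g : GQ) s) = (g : GQ) (c s)
    refine B.root_unique hp.pos ?_ ?_ (hc1 _)
    · rw [hc, ← map_pow, hc, vl_applyL b g.2 s]
    · have := (B.pres_Dq v).GT g.2 (hc1 s)
      rwa [map_sub, map_one] at this
  · rw [vl_nsmul, vl_ofVl, hc]

end Fermat.Agent.S55.D
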