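import Fermat.Agent.S55.D.Ar.Plc
import Fermat.Agent.S55.D.Ar.Unr

/-!
# S55 / layer D-AR : approximation (A2), divisors (DIV), the divisor of a family

`π` a finite transitive smooth `GQ`-set, `s0` a base point, `F = G.fld π s0`, `evF : EG π ≃ Fˣ`, `vl a (π g s0) = g (evF a)`.

## key S55/D-AR-EVF : the `evF` API (`evF_add` ... `w_vl_eq`)  (~80 lines, formal)
`vl_eq`: `G.coe_evK` (`G.ev = G.evK ..`) gives `vl a s0 = evF a`; then `vl_applyG`.   `w_vl_eq`: `exists_w_eq`.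
## key S55/D-AR-A2 : `exists_approx_EL`  (~200 lines)
WLOG `r ≥ 0`.  `F = G.fld π s0` (`obtain ⟨s0⟩ := htr.1`, `haveI := G.numberField_fld hπ s0`), `Fix F = G.stab π s0` (`G.fixingSubgroup_fld`).
`T' = SF F T`.  For `w ∈ T'` choose `v_w ∈ T`, `g_w` with `plc F v_w g_w = w` (`mem_SF`), `x_w = vl (b v_w) (π g_w s0) ∈ Fx (HH v_w (emb F g_w))` (`mem_Fx_HH`, `vl_applyL`:
`d` with `g⁻¹ d g ∈ stab s0` fixes `π g s0`).  `B.dense_units` : `y_w ∈ Fˣ`, `w (x_w / g_w y_w - 1) > r`.  `e_w` from `exists_w_eq`; `n` with `n e_w > r` for all `w ∈ T'` (finite; `exists_nat_gt`, `Finset.sup`/induction).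
`C.exists_approx T' y n` : `a0`, `a0 / y_w ∈ Ulev w n`, so `w (g_w (a0 / y_w) - 1) ≥ n e_w > r`.  Hence `w (x_w / g_w a0 - 1) > r`
(`x/a - 1 = ((x/y - 1) - (a/y - 1)) / (a/y)`, `w (a/y) = 0`).   `a = ofF a0`.
General `(v, s)`, `v ∈ T`, `s = π g s0`: `w = plc F v g ∈ T'`, `plc_inj` : `v_w = v`, `g = d g_w h`; `vl (b v) s = d x_w`, `vl a s = d (g_w a0)`; `B.pres_Dq`.
## key S55/D-AR-DIV : `loc1_kumG_mem_H1ur`  (~100 lines)
`T = {plc F v g}` (`finite_plc`), `t ∈ Fˣ`, `ord w t = ord w a / p` on `T` (`S14.exists_ord_eq`).  `a = (a - p • ofF t) + p • ofF t`, `kumG_nsmul`, `loc1_kumG`, `kumL_mem_H1ur`: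
`w_v (vl (a - p • ofF t) (π g s0)) = (ord w a - p ord w t) e = 0` (`w_vl_eq`), every `s` is `π g s0` (`htr.2`).
## key S55/D-AR-DREL : `exists_divRel`  (~150 lines)
`n ∈ FamG`: `T = {v ∉ S | n v ∉ H1ur}` finite.  For every `v`: `n v = kumL b_v` (`kumL_surjective`), `exists_approx_EL {v} b 0` gives `a_v` with `w (b_v(s)/a_v(s) - 1) > 0`, so `w (b_v(s)/a_v(s)) = 0`,
`n v - loc1 (kumG a_v) = kumL (b_v - resL a_v) ∈ H1ur` (`kumL_mem_H1ur`).  `pr w` := the prime below `w` (`exists_plc`, `plc_inj`).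
`m w := if pr w ∈ T then ord w (evF a_(pr w)) else 0`; support `⊆ ⋃_{v ∈ T} {w | ord w (evF a_v) ≠ 0}` (`S14.ord_support_finite`).  For `v ∉ S`, `v ∉ T` use `a = 0`.
-/

set_option autoImplicit false

noncomputable section

namespace Fermat.Agent.S55.D

open ExtCitation T Fermat.Agent.S05 Fermat.Agent.S14 NumberField

variable {Sg : Type} {π : GQ →* Equiv.Perm Sg} (htr : IsTrans π) (s0 : Sg)

/-- `G.ev` with the types of this layer -/
def evE : EG π ≃+ Additive (G.fld π s0)ˣ := G.ev htr s0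

/-- `EG π ≃ Fˣ` -/
def evF (a : EG π) : (G.fld π s0)ˣ := (evE htr s0 a).toMul

/-- `Fˣ ≃ EG π` -/
def ofF (x : (G.fld π s0)ˣ) : EG π := (evE htr s0).symm (Additive.ofMul x)

@[simp] theorem evF_ofF (x : (G.fld π s0)ˣ) : evF htr s0 (ofF htr s0 x) = x := by
  simp [evF, ofF]

@[simp] theorem ofF_evF (a : EG π) : ofF htr s0 (evF htr s0 a) = a := by
  simp [evF, ofF]

@[simp] theorem evF_zero : evF htr s0 (0 : EG π) = 1 := by simp [evF]

@[simp] theorem evF_add (a b : EG π) : evF htr s0 (a + b) = evF htr s0 a * evF htr s0 b := by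
  simp [evF]

@[simp] theorem evF_neg (a : EG π) : evF htr s0 (-a) = (evF htr s0 a)⁻¹ := by
  simp [evF]

@[simp] theorem evF_sub (a b : EG π) : evF htr s0 (a - b) = evF htr s0 a / evF htr s0 b := by
  simp [evF]

@[simp] theorem evF_nsmul (n : ℕ) (a : EG π) : evF htr s0 (n • a) = evF htr s0 a ^ n := by
  simp [evF]

theorem ofF_mul (x y : (G.fld π s0)ˣ) : ofF htr s0 (x * y) = ofF htr s0 x + ofF htr s0 y := by
  simp [ofF]

theorem ofF_pow (x : (G.fld π s0)ˣ) (n : ℕ) : ofF htr s0 (x ^ n) = n • ofF htr s0 x := by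
  simp [ofF]

/-- [S55/D-AR-EVF] -/
theorem vl_eq (a : EG π) (g : GQ) :
    vl a (π g s0) = g (((evF htr s0 a : (G.fld π s0)ˣ) : G.fld π s0) : Qb) := by
  rw [vl_applyG]
  rfl

/-- [S55/D-AR-EVF] -/
theorem w_vl_eq [NumberField (G.fld π s0)] (v : Nat.Primes) (g : GQ) : ∃ e : ℝ, 0 < e ∧
    ∀ a : EG π, (B.wq v).w (vl a (π g s0)) = ord (plc (G.fld π s0) v g) (evF htr s0 a) * e := by
  obtain ⟨e, he, h, -⟩ := exists_w_eq (F := G.fld π s0) v g
  exact ⟨e, he, fun a => by rw [vl_eq htr s0, h]⟩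

/-- auxiliary: `X/Y` and `A/Y` close to `1` implies `X/A` close to `1` -/
theorem a2Aux_close {v : RVal Qb} {X Y A : Qb} (hY : Y ≠ 0) (hA : A ≠ 0) {r : ℝ} (hr : 0 ≤ r)
    (h1 : v.GT (X / Y - 1) r) (h2 : v.GT (A / Y - 1) r) : v.GT (X / A - 1) r := by
  have h3 : v.EQ (A / Y) 0 := by
    have := (RVal.EQ_one (v := v)).add_GT (h2.mono hr)
    rwa [add_sub_cancel] at this
  have e : (X / A - 1) * (A / Y) = (X / Y - 1) - (A / Y - 1) := by
    field_simp
    ring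
  have := RVal.GT.of_mul_eq_left e h3 (h1.sub h2)
  rwa [sub_zero] at this

theorem a2Aux_exists_nat {ι : Type*} (s : Finset ι) (e : ι → ℝ) (he : ∀ i, 0 < e i) (r : ℝ) :
    ∃ n : ℕ, 0 < n ∧ ∀ i ∈ s, r < n * e i := by
  classical
  choose m hm using fun i => exists_nat_gt (r / e i)
  refine ⟨1 + ∑ i ∈ s, m i, by omega, fun i hi => ?_⟩
  have h1 : (m i : ℝ) ≤ ((1 + ∑ i ∈ s, m i : ℕ) : ℝ) := by
    have : m i ≤ ∑ i ∈ s, m i := Finset.single_le_sum (f := m) (fun _ _ => Nat.zero_le _) hi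
    exact_mod_cast this.trans (Nat.le_add_left _ _)
  calc r = r / e i * e i := by field_simp [(he i).ne']
    _ < m i * e i := mul_lt_mul_of_pos_right (hm i) (he i)
    _ ≤ _ := mul_le_mul_of_nonneg_right h1 (he i).le

variable [Fintype Sg] (hπ : SmoothSet π lvlQ)

include htr hπ in
/-- [S55/D-AR-A2] **(A2)** weak approximation -/
theorem exists_approx_EL (T : Finset Nat.Primes) (b : ∀ v, EL π v) (r : ℝ) :
    ∃ a : EG π, ∀ v ∈ T, ∀ s, (B.wq v).GT (vl (b v) s / vl a s - 1) r := by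
  classical
  obtain ⟨s0⟩ := htr.1
  have hNF := G.numberField_fld hπ s0
  have hFix : (G.fld π s0).fixingSubgroup = G.stab π s0 := G.fixingSubgroup_fld hπ s0
  have hr' : 0 ≤ max r 0 := le_max_right _ _
  have hch : ∀ w : Pl (G.fld π s0), ∃ (v : Nat.Primes) (g : GQ),
      w ∈ SF (G.fld π s0) T → (v ∈ T ∧ plc (G.fld π s0) v g = w) := by
    intro w
    by_cases hw : w ∈ SF (G.fld π s0) T
    · obtain ⟨v, hv, g, hg⟩ := mem_SF.1 hw
      exact ⟨v, g, fun _ => ⟨hv, hg⟩⟩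
    · exact ⟨⟨2, Nat.prime_two⟩, 1, fun h => absurd h hw⟩
  choose vv gg hvg using hch
  have hx : ∀ w, vl (b (vv w)) (π (gg w) s0) ∈
      B.Fx (B.HH (vv w) (emb (G.fld π s0) (gg w))) := fun w => mem_Fx_HH fun d hd hdg => by
    rw [hFix] at hdg
    have h1 : π ((gg w)⁻¹ * d * gg w) s0 = s0 := hdg
    have h2 : π d (π (gg w) s0) = π (gg w) s0 := by
      have := congrArg (π (gg w)) h1
      rw [← Equiv.Perm.mul_apply, ← map_mul] at this
      rw [← Equiv.Perm.mul_apply, ← map_mul, ← this]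
      congr 2
      group
    rw [← vl_applyL (b (vv w)) hd, h2]
  choose y hy using fun w => B.dense_units (vv w) (emb (G.fld π s0) (gg w)) (hx w)
    (vl_ne_zero _ _) (max r 0)
  choose e he hew heU using fun w => exists_w_eq (F := G.fld π s0) (vv w) (gg w)
  obtain ⟨n, hn0, hn⟩ := a2Aux_exists_nat (SF (G.fld π s0) T) e he (max r 0)
  obtain ⟨a0, ha0⟩ := C.exists_approx (SF (G.fld π s0) T) y n
  have key : ∀ w ∈ SF (G.fld π s0) T, (B.wq (vv w)).GT
      (vl (b (vv w)) (π (gg w) s0) / gg w (((a0 : (G.fld π s0)ˣ) : G.fld π s0) : Qb) - 1)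
      (max r 0) := by
    intro w hw
    have h1 : a0 / y w ∈ Ulev (plc (G.fld π s0) (vv w) (gg w)) n := by
      rw [(hvg w hw).2]
      exact ha0 w hw
    have h2 := (heU w _ n hn0 h1).GT (hn w hw)
    have h3 : gg w ((((a0 / y w : (G.fld π s0)ˣ)) : G.fld π s0) : Qb) =
        gg w (((a0 : (G.fld π s0)ˣ) : G.fld π s0) : Qb) /
          gg w (((y w : (G.fld π s0)ˣ) : G.fld π s0) : Qb) := by
      rw [← map_div₀, Units.val_div_eq_div_val]
      rfl
    rw [h3] at h2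
    have hne : ∀ z : (G.fld π s0)ˣ, gg w ((z : G.fld π s0) : Qb) ≠ 0 := fun z =>
      (map_ne_zero_iff _ (gg w).injective).2 (fun h0 => z.ne_zero (Subtype.ext h0))
    exact a2Aux_close (hne _) (hne _) hr' (hy w) h2
  have trans : ∀ (v v' : Nat.Primes) (g g' : GQ),
      plc (G.fld π s0) v' g' = plc (G.fld π s0) v g →
      (B.wq v').GT (vl (b v') (π g' s0) / g' (((a0 : (G.fld π s0)ˣ) : G.fld π s0) : Qb) - 1)
        (max r 0) →
      (B.wq v).GT (vl (b v) (π g s0) / g (((a0 : (G.fld π s0)ˣ) : G.fld π s0) : Qb) - 1)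
        (max r 0) := by
    intro v v' g g' hpl hGT
    obtain ⟨rfl, d, hd, h, hh, rfl⟩ := plc_inj hpl
    have h1 : π h s0 = s0 := by
      rw [hFix] at hh
      exact hh
    have h2 : h (((a0 : (G.fld π s0)ˣ) : G.fld π s0) : Qb) =
        (((a0 : (G.fld π s0)ˣ) : G.fld π s0) : Qb) :=
      (IntermediateField.mem_fixingSubgroup_iff _ h).1 hh _ (a0 : G.fld π s0).2
    have h3 : π (d * g' * h) s0 = π d (π g' s0) := by
      rw [map_mul, map_mul, Equiv.Perm.mul_apply, Equiv.Perm.mul_apply, h1]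
    have h4 : (d * g' * h) (((a0 : (G.fld π s0)ˣ) : G.fld π s0) : Qb) =
        d (g' (((a0 : (G.fld π s0)ˣ) : G.fld π s0) : Qb)) := by
      rw [AlgEquiv.mul_apply, AlgEquiv.mul_apply, h2]
    rw [h3, h4, vl_applyL (b v') hd, ← map_div₀, ← map_one d, ← map_sub]
    exact (B.pres_Dq v').GT hd hGT
  refine ⟨ofF htr s0 a0, fun v hv s => ?_⟩
  obtain ⟨g, rfl⟩ := htr.2 s0 s
  have hw : plc (G.fld π s0) v g ∈ SF (G.fld π s0) T := plc_mem_SF_iff.2 hv
  rw [vl_eq htr s0, evF_ofF]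
  exact (trans v _ g _ (hvg _ hw).2 (key _ hw)).mono (le_max_left _ _)

variable {p : ℕ} [Fact p.Prime] {S : Finset Nat.Primes}

/-- [S55/D-AR-DIV] **(DIV)** -/
theorem loc1_kumG_mem_H1ur [NumberField (G.fld π s0)] (hpS : pPrime p ∈ S)
    (hπS : SmoothSet π (lvlS S)) {v : Nat.Primes} (hv : v ∉ S) (a : EG π)
    (h : ∀ g, (p : ℤ) ∣ ord (plc (G.fld π s0) v g) (evF htr s0 a)) :
    loc1 (Fn π (rhoT p)) v (kumG p hπ a) ∈ H1ur v (rv Dq (Fn π (rhoT p)) v) := by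
  obtain ⟨t, ht⟩ := exists_ord_eq (finite_plc (F := G.fld π s0) v).toFinset
    (fun w => ord w (evF htr s0 a) / (p : ℤ))
  have e1 : kumG p hπ a = kumG p hπ (a - p • ofF htr s0 t) := by
    rw [map_sub (kumG p hπ) _ (p • _), kumG_nsmul, sub_zero]
  rw [e1, loc1_kumG]
  refine kumL_mem_H1ur hpS hπS hπ hv _ fun s => ?_
  obtain ⟨g, rfl⟩ := htr.2 s0 s
  obtain ⟨e, -, hw⟩ := w_vl_eq htr s0 v g
  rw [vl_resL, hw, evF_sub, evF_nsmul, evF_ofF, ord_div, ord_pow, ht _ (by simp),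
    Int.mul_ediv_cancel' (h g), sub_self, Int.cast_zero, zero_mul]

/-- `m` is a divisor of the family `n` (outside `S`) -/
def DivRel [NumberField (G.fld π s0)] (S : Finset Nat.Primes) (n : Fam (Fn π (rhoT p)))
    (m : Pl (G.fld π s0) →₀ ℤ) : Prop :=
  ∀ v ∉ S, ∃ a : EG π, n v - loc1 (Fn π (rhoT p)) v (kumG p hπ a) ∈ H1ur v (rv Dq (Fn π (rhoT p)) v) ∧
    ∀ g, ord (plc (G.fld π s0) v g) (evF htr s0 a) = m (plc (G.fld π s0) v g)

omit [Fintype Sg] in
theorem drelAux_w_eq_zero {v : RVal Qb} {t : Qb} (h : v.GT (t - 1) 0) : v.w t = 0 := by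
  have := (RVal.EQ_one (v := v)).add_GT h
  rw [add_sub_cancel] at this
  exact this.w_eq

include htr in
theorem drelAux_exists (hpS : pPrime p ∈ S) (hπS : SmoothSet π (lvlS S))
    (n : Fam (Fn π (rhoT p))) {v : Nat.Primes} (hv : v ∉ S) :
    ∃ a : EG π, n v - loc1 (Fn π (rhoT p)) v (kumG p hπ a) ∈ H1ur v (rv Dq (Fn π (rhoT p)) v) := by
  classical
  obtain ⟨b, hb⟩ := kumL_surjective p hπ v (n v)
  obtain ⟨a, ha⟩ := exists_approx_EL htr hπ {v}
    (Function.update (fun v' => (0 : EL π v')) v b) 0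
  refine ⟨a, ?_⟩
  rw [← hb, loc1_kumG, ← map_sub]
  refine kumL_mem_H1ur hpS hπS hπ hv _ fun s => ?_
  have h1 := ha v (Finset.mem_singleton_self v) s
  rw [Function.update_self] at h1
  rw [vl_sub, vl_resL]
  exact drelAux_w_eq_zero h1

/-- [S55/D-AR-DREL] -/
theorem exists_divRel [NumberField (G.fld π s0)] (hpS : pPrime p ∈ S)
    (hπS : SmoothSet π (lvlS S)) (n : Fam (Fn π (rhoT p))) (hn : n ∈ FamG S (Fn π (rhoT p))) :
    ∃ m, DivRel htr s0 hπ S n m := by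
  classical
  choose a ha using fun (v : Nat.Primes) (hv : v ∉ S) => drelAux_exists htr hπ hpS hπS n hv
  let A : Nat.Primes → EG π := fun v =>
    if h : v ∉ S ∧ n v ∉ H1ur v (rv Dq (Fn π (rhoT p)) v) then a v h.1 else 0
  have hA : ∀ v ∉ S, n v - loc1 (Fn π (rhoT p)) v (kumG p hπ (A v)) ∈
      H1ur v (rv Dq (Fn π (rhoT p)) v) := by
    intro v hv
    by_cases h : n v ∈ H1ur v (rv Dq (Fn π (rhoT p)) v)
    · have : A v = 0 := dif_neg fun h' => h'.2 h
      rw [this, map_zero, map_zero, sub_zero]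
      exact h
    · have : A v = a v hv := dif_pos ⟨hv, h⟩
      rw [this]
      exact ha v hv
  choose pr gr hpr using exists_plc (F := G.fld π s0)
  have hpr' : ∀ v g, pr (plc (G.fld π s0) v g) = v := fun v g => (plc_inj (hpr _)).1
  have hfin : (Function.support fun w : Pl (G.fld π s0) => ord w (evF htr s0 (A (pr w)))).Finite := by
    have hT : {v | v ∉ S ∧ n v ∉ H1ur v (rv Dq (Fn π (rhoT p)) v)}.Finite := hn
    refine (hT.biUnion fun v _ => ord_support_finite (evF htr s0 (A v))).subset ?_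
    intro w hw
    rw [Function.mem_support] at hw
    rw [Set.mem_iUnion₂]
    refine ⟨pr w, ?_, hw⟩
    by_contra hcon
    have : A (pr w) = 0 := dif_neg hcon
    rw [this, evF_zero, ord_one] at hw
    exact hw rfl
  refine ⟨Finsupp.ofSupportFinite _ hfin, fun v hv => ⟨A v, hA v hv, fun g => ?_⟩⟩
  rw [Finsupp.ofSupportFinite_coe, hpr']

end Fermat.Agent.S55.D
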