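import Fermat.Agent.S55.D.Ar.Approx
import Fermat.Agent.S55.D.InputsA

/-!
# S55 / layer D-AR : capitulation `capT'`   (assembly PROVED from the keys below)

`u ∈ FamG(M₀)` has a divisor `𝔞 : Pl F →₀ ℤ` (`exists_divRel`).  `c1 ∈ Fˣ` with `ord_w c1 = p^k (1 + p m) 𝔞_w` for ALL `w` (class number), `c^(p^k) = c1`.
`F(c)` is unramified outside `S`; over a good `π'` whose stabilisers fix `c` the function `c' = (g s0' ↦ g c)` has "divisor" `(1 + p m) 𝔞 ≡ 𝔞`.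

## key S55/D-AR-CL : `exists_pow_principal`  (~150 lines; number fields only: `S14/SUnits.lean exists_generator` is the model)
`h = classNumber F = p^k h'`, `p ∤ h'` (`Nat.exists_eq_pow_mul_and_not_dvd`), `h' h'' = 1 + p m` (`Nat.Coprime`, `Nat.exists_mul_emod_eq_one_of_coprime` / `ZMod` inverse).
For every `w`: `w.asIdeal ^ h = span {a_w}` (`ClassGroup.mk0`, `pow_card_eq_one`), so `x_w ∈ Fˣ` with `ord w x_w = h`, `ord v x_w = 0` for `v ≠ w`
(`S14.le_ord_iff` / `count_spanSingleton`).  `c = ∏_{w ∈ supp 𝔞} x_w ^ (h'' 𝔞_w)` (`Finsupp.prod`, `S14.ord_zpow`, `ord` of a finite product by induction).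
## key S55/D-AR-ROOT : `exists_level_of_root`  (~150 lines)
`f g := g c` is `LC1 lvlQ` (`galAct_Q.smooth c`).  `LC1_lvlS_of_inertia S f`: need `i c = c` for `q ∉ S`, `B` over `q`, `i ∈ I(B)`.  `exists_conj_inertia q B hB` : `i = h i₀ h⁻¹`, `i₀ ∈ Iq q`.  So we need
`i₀ (g c) = g c` for all `g` (`g = h⁻¹`).  `w = plc F q g`, `t ∈ Fˣ`, `ord w t = ord w c1 / p^k`, `y = g c / g t`, `y^(p^k) = g (c1 / t^(p^k))` has `w_q = 0` (`exists_w_eq`), so `w_q y = 0`.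
`i₀` fixes `g x` for `x ∈ F` (`Iq_le_of_mem_lvlS`: `π i₀ = 1`, so `g⁻¹ i₀ g ∈ G.stab π s0`; `G.mem_fld`).  `apply_eq_of_pow_fixed` (`q ∤ p^k`).   The conclusion: `LC1 (lvlS S) f` gives `U`; `u c = f (1 * u) = f 1 = c`.
## key S55/D-AR-FIX : `exists_EG_of_fixed`  (~30 lines; `G.fnOf`, `G.fnOf_apply`, `G.fnOf_mem_H0`, or `exists_of_orbit`)
## key S55/D-AR-CAPLOC : `loc1_kumG_sub_mem_H1ur`  (~150 lines)
`T = {plc F v g}` finite, `t ∈ Fˣ` with `ord w t = - m 𝔞_w` on `T`.  `y = pullG a - c' - p • pullG (ofF t)`; `kumG (pullG a - c') = kumG y` (`kumG_nsmul`); `loc1_kumG`, `kumL_mem_H1ur` for `π'`: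
every `s' = π' g s0'`, `j s' = π g s0`, `vl y s' = g (evF a) / (g c * (g t)^p)`; `p^k w_v (g c) = w_v (g c1) = p^k (1 + p m) 𝔞_w e`, `w_v (g (evF a)) = 𝔞_w e`, `w_v (g t) = - m 𝔞_w e` (`exists_w_eq`).
## key S55/D-AR-NAT : `H1c_pull_loc1`  (~15 lines: `H1.mk_surjective`, `rfl`)
-/

set_option autoImplicit false

noncomputable section

namespace Fermat.Agent.S55.D

open ExtCitation T Fermat.Agent.S05 Fermat.Agent.S14 NumberField IsDedekindDomain

theorem clAux_ord_prod {F : Type*} [Field F] [NumberField F] {ι : Type*} (v : Pl F) (s : Finset ι)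
    (f : ι → Fˣ) : ord v (∏ i ∈ s, f i) = ∑ i ∈ s, ord v (f i) := by
  classical
  induction s using Finset.induction_on with
  | empty => simp [ord_one]
  | insert a s ha ih => rw [Finset.prod_insert ha, Finset.sum_insert ha, ord_mul, ih]

theorem clAux_exists_gen {F : Type*} [Field F] [NumberField F] (w : Pl F) :
    ∃ x : Fˣ, ord w x = classNumber F ∧ ∀ v, v ≠ w → ord v x = 0 := by
  classical
  have hw : w.asIdeal ∈ nonZeroDivisors (Ideal (𝓞 F)) := mem_nonZeroDivisors_of_ne_zero w.ne_bot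
  have h1 : ClassGroup.mk0 ⟨w.asIdeal, hw⟩ ^ (classNumber F) = 1 := pow_card_eq_one
  rw [← map_pow] at h1
  have h2 : (w.asIdeal ^ classNumber F).IsPrincipal := by
    have := (ClassGroup.mk0_eq_one_iff (I := w.asIdeal ^ classNumber F)
      (pow_mem hw _)).mp (by rw [← h1]; rfl)
    exact this
  obtain ⟨a, ha⟩ := h2
  have ha' : w.asIdeal ^ classNumber F = Ideal.span {a} := ha
  have hpos : 0 < classNumber F := Fintype.card_pos
  have ha0 : a ≠ 0 := by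
    rintro rfl
    rw [Set.singleton_zero, Ideal.span_zero] at ha'
    exact w.ne_bot (pow_eq_zero_iff hpos.ne' |>.mp ha')
  have ha0' : algebraMap (𝓞 F) F a ≠ 0 := by
    rw [Ne, map_eq_zero_iff _ (IsFractionRing.injective (𝓞 F) F)]
    exact ha0
  refine ⟨Units.mk0 _ ha0', ?_, fun v hv => ?_⟩
  · apply le_antisymm
    · by_contra hlt
      have h3 : ((classNumber F + 1 : ℕ) : ℤ) ≤ ord w (Units.mk0 _ ha0') := by
        push_cast; omega
      rw [le_ord_iff w _ a rfl] at h3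
      have h4 : w.asIdeal ^ classNumber F ≤ w.asIdeal ^ (classNumber F + 1) := by
        rw [ha', Ideal.span_singleton_le_iff_mem]
        exact h3
      exact absurd h4 (not_le_of_gt (Ideal.pow_succ_lt_pow (P_prime := w.isPrime) w.ne_bot _))
    · rw [le_ord_iff w _ a rfl, ha']
      exact Ideal.mem_span_singleton_self a
  · rw [ord_eq_zero_iff v _ a rfl]
    intro hav
    have h3 : w.asIdeal ^ classNumber F ≤ v.asIdeal := by
      rw [ha', Ideal.span_singleton_le_iff_mem]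
      exact hav
    have h4 : w.asIdeal ≤ v.asIdeal := v.isPrime.le_of_pow_le h3
    have h5 : w.asIdeal = v.asIdeal := w.isMaximal.eq_of_le v.isPrime.ne_top h4
    exact hv (HeightOneSpectrum.ext h5.symm)

/-- [S55/D-AR-CL] a multiple `p^k (1 + p m) 𝔞` of every divisor is principal -/
theorem exists_pow_principal {F : Type*} [Field F] [NumberField F] (p : ℕ) [Fact p.Prime]
    (𝔞 : Pl F →₀ ℤ) :
    ∃ (k m : ℕ) (c : Fˣ), ∀ w, ord w c = (p : ℤ) ^ k * (1 + p * m) * 𝔞 w := by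
  classical
  have hp : p.Prime := Fact.out
  have hpos : 0 < classNumber F := Fintype.card_pos
  obtain ⟨k, h', hh', hh⟩ := Nat.exists_eq_pow_mul_and_not_dvd hpos.ne' p hp.ne_one
  have hcop : Nat.Coprime h' p := ((Nat.Prime.coprime_iff_not_dvd hp).2 hh').symm
  obtain ⟨h'', -, hh''⟩ := Nat.exists_mul_mod_eq_one_of_coprime hcop hp.one_lt
  -- `h' * h'' = 1 + p * m`
  obtain ⟨m, hm⟩ : ∃ m : ℕ, h' * h'' = 1 + p * m := by
    refine ⟨h' * h'' / p, ?_⟩
    have := Nat.div_add_mod (h' * h'') p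
    omega
  choose x hx1 hx2 using fun w : Pl F => clAux_exists_gen w
  refine ⟨k, m, ∏ w ∈ 𝔞.support, x w ^ ((h'' : ℤ) * 𝔞 w), fun v => ?_⟩
  rw [clAux_ord_prod]
  have e : ∀ w ∈ 𝔞.support, ord v (x w ^ ((h'' : ℤ) * 𝔞 w)) =
      if w = v then (h'' : ℤ) * 𝔞 v * classNumber F else 0 := by
    intro w _
    rw [ord_zpow]
    by_cases hwv : w = v
    · subst hwv
      rw [if_pos rfl, hx1]
    · rw [if_neg hwv, hx2 w v (fun h => hwv h.symm), mul_zero]
  rw [Finset.sum_congr rfl e, Finset.sum_ite_eq']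
  have hZ : (classNumber F : ℤ) * h'' = (p : ℤ) ^ k * (1 + p * m) := by
    have : classNumber F * h'' = p ^ k * (1 + p * m) := by rw [hh, mul_assoc, hm]
    exact_mod_cast this
  split_ifs with hv
  · calc (h'' : ℤ) * 𝔞 v * classNumber F = ((classNumber F : ℤ) * h'') * 𝔞 v := by ring
      _ = _ := by rw [hZ]
  · rw [Finsupp.notMem_support_iff.1 hv, mul_zero]

variable {p : ℕ} [Fact p.Prime] {S : Finset Nat.Primes}

/-- [S55/D-AR-ROOT] -/
theorem exists_level_of_root {Sg : Type} [Fintype Sg] {π : GQ →* Equiv.Perm Sg}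
    (hpS : pPrime p ∈ S) (hπS : SmoothSet π (lvlS S)) (s0 : Sg) [NumberField (G.fld π s0)] (k : ℕ)
    (c1 : (G.fld π s0)ˣ) (h : ∀ w, (p : ℤ) ^ k ∣ ord w c1) (c : Qb)
    (hc : c ^ p ^ k = ((c1 : G.fld π s0) : Qb)) : ∃ U ∈ (lvlS S).sets, ∀ u ∈ U, u c = c := by
  classical
  have hp : p.Prime := Fact.out
  have hpk : 0 < p ^ k := pow_pos hp.pos k
  have hc0 : c ≠ 0 := by
    rintro rfl
    rw [zero_pow hpk.ne'] at hc
    exact c1.ne_zero (Subtype.ext hc.symm)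
  have key : ∀ q : Nat.Primes, q ∉ S → ∀ i₀ ∈ Iq q, ∀ g : GQ, i₀ (g c) = g c := by
    intro q hq i₀ hi₀ g
    obtain ⟨e, he, hw, -⟩ := exists_w_eq (F := G.fld π s0) q g
    obtain ⟨n, hn⟩ := h (plc (G.fld π s0) q g)
    obtain ⟨t, ht⟩ := exists_ord_eq ({plc (G.fld π s0) q g} : Finset (Pl (G.fld π s0)))
      (fun _ => n)
    have ht' : ord (plc (G.fld π s0) q g) t = n := ht _ (Finset.mem_singleton_self _)
    have hfixF : ∀ x ∈ G.fld π s0, i₀ (g x) = g x := by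
      intro x hx
      obtain ⟨U, hU, hu⟩ := hπS
      have h1 : π i₀ = 1 := hu i₀ (Iq_le_of_mem_lvlS hU hq hi₀)
      have h2 : g⁻¹ * i₀ * g ∈ G.stab π s0 := by
        rw [G.mem_stab, map_mul, map_mul, h1, mul_one, ← map_mul, inv_mul_cancel, map_one]
        rfl
      have h3 := (G.mem_fld π).1 hx _ h2
      rw [AlgEquiv.mul_apply, AlgEquiv.mul_apply] at h3
      have h4 := congrArg g h3
      rwa [show g (g⁻¹ (i₀ (g x))) = i₀ (g x) from g.apply_symm_apply _] at h4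
    have ht0 : g ((t : G.fld π s0) : Qb) ≠ 0 :=
      (map_ne_zero g).2 (fun h0 => t.ne_zero (Subtype.ext h0))
    have hgc0 : g c ≠ 0 := (map_ne_zero g).2 hc0
    set y : Qb := g c / g ((t : G.fld π s0) : Qb) with hy
    have hy0 : y ≠ 0 := div_ne_zero hgc0 ht0
    have hypow : y ^ p ^ k = g (((c1 * (t ^ p ^ k)⁻¹ : (G.fld π s0)ˣ) : G.fld π s0) : Qb) := by
      rw [hy, div_pow, ← map_pow, hc, ← map_pow, ← map_div₀]
      congr 1
      push_cast
      rw [div_eq_mul_inv]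
    have hwy : (B.wq q).w (y ^ p ^ k) = 0 := by
      rw [hypow, hw, ord_mul, ord_inv, ord_pow, ht', hn]
      push_cast
      ring
    have hwy' : (B.wq q).w y = 0 := by
      rw [RVal.w_pow hy0] at hwy
      have : ((p ^ k : ℕ) : ℝ) ≠ 0 := by exact_mod_cast hpk.ne'
      exact (mul_eq_zero.1 hwy).resolve_left this
    have hqp : ¬ (q : ℕ) ∣ p ^ k := by
      intro hd
      have h1 := (Nat.prime_dvd_prime_iff_eq q.2 hp).1 (q.2.dvd_of_dvd_pow hd)
      exact hq (by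
        have : q = pPrime p := Subtype.ext h1
        rw [this]; exact hpS)
    have hiy : i₀ y = y := apply_eq_of_pow_fixed hqp ⟨hy0, hwy'⟩ hi₀ (by
      rw [hypow]
      exact hfixF _ (Subtype.property _))
    have hgc : g c = y * g ((t : G.fld π s0) : Qb) := by
      rw [hy, div_mul_cancel₀ _ ht0]
    rw [hgc, map_mul, hiy, hfixF _ (Subtype.property _)]
  have h1 : LC1 lvlQ (fun g : GQ => g c) := by
    obtain ⟨U, hU, hu⟩ := galAct_Q.smooth c
    exact ⟨U, hU, fun g u hu' => by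
      change g (u c) = g c
      rw [show u c = c from hu u hu']⟩
  obtain ⟨U, hU, hu⟩ := LC1_lvlS_of_inertia S (fun g : GQ => g c) h1
    (fun q hq B hB i hi g => by
      obtain ⟨a, ha⟩ := exists_conj_inertia q B hB
      obtain ⟨i₀, hi₀, rfl⟩ := ha i hi
      change g (a (i₀ (a⁻¹ c))) = g c
      rw [key q hq i₀ hi₀ a⁻¹, show a (a⁻¹ c) = c from a.apply_symm_apply c])
  exact ⟨U, hU, fun u hu' => hu 1 u hu'⟩

/-- [S55/D-AR-FIX] -/
theorem exists_EG_of_fixed {Sg : Type*} {π : GQ →* Equiv.Perm Sg} (htr : IsTrans π) (s0 : Sg)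
    (c : Qb) (hc0 : c ≠ 0) (hfix : ∀ g, π g s0 = s0 → g c = c) :
    ∃ c' : EG π, ∀ g, vl c' (π g s0) = g c := by
  have key : ∀ a b : GQ, π a s0 = π b s0 → a c = b c := by
    intro a b hab
    have h1 : π (b⁻¹ * a) s0 = s0 := by
      rw [map_mul, Equiv.Perm.mul_apply, hab, ← Equiv.Perm.mul_apply, ← map_mul, inv_mul_cancel,
        map_one]
      rfl
    have h2 := hfix _ h1
    rw [AlgEquiv.mul_apply] at h2
    have h3 := congrArg b h2
    rwa [← AlgEquiv.mul_apply, mul_inv_cancel, AlgEquiv.one_apply] at h3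
  refine ⟨ofVl (fun s => G.sec htr s0 s c) (fun s => ?_) (fun g s => ?_), fun g => ?_⟩
  · exact (map_ne_zero _).2 hc0
  · change G.sec htr s0 (π g s) c = g (G.sec htr s0 s c)
    rw [← AlgEquiv.mul_apply]
    apply key
    rw [G.sec_spec, map_mul, Equiv.Perm.mul_apply, G.sec_spec]
  · rw [vl_ofVl]
    apply key
    rw [G.sec_spec]

/-- [S55/D-AR-NAT] -/
theorem H1c_pull_loc1 {A : Type*} [AddCommGroup A] (ρ : GQ →* AddMonoid.End A) {Sg Sg' : Type*}
    {π : GQ →* Equiv.Perm Sg} {π' : GQ →* Equiv.Perm Sg'} {j : Sg' → Sg} (hj : IsSetMap π π' j)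
    (v : Nat.Primes) (x : H1 lvlQ (Fn π ρ)) :
    H1c (lvlD v) ((isHom_pull ρ hj).res (Dq v).subtype) (loc1 (Fn π ρ) v x) =
      loc1 (Fn π' ρ) v (H1c lvlQ (isHom_pull ρ hj) x) := by
  obtain ⟨f, rfl⟩ := H1.mk_surjective _ _ x
  rfl

/-- [S55/D-AR-CAPLOC] -/
theorem loc1_kumG_sub_mem_H1ur {Sg Sg' : Type} [Fintype Sg] [Fintype Sg']
    {π : GQ →* Equiv.Perm Sg} {π' : GQ →* Equiv.Perm Sg'} {j : Sg' → Sg} (hj : IsSetMap π π' j)
    (htr : IsTrans π) (htr' : IsTrans π') (hπ' : SmoothSet π' lvlQ) (hπS' : SmoothSet π' (lvlS S))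
    (hpS : pPrime p ∈ S) (s0' : Sg') [NumberField (G.fld π (j s0'))]
    (𝔞 : Pl (G.fld π (j s0')) →₀ ℤ) (k m : ℕ) (c1 : (G.fld π (j s0'))ˣ)
    (hc1 : ∀ w, ord w c1 = (p : ℤ) ^ k * (1 + p * m) * 𝔞 w) (c' : EG π')
    (hc' : ∀ g : GQ, vl c' (π' g s0') ^ p ^ k = g ((c1 : G.fld π (j s0')) : Qb))
    {v : Nat.Primes} (hv : v ∉ S) (a : EG π)
    (ha : ∀ g, ord (plc (G.fld π (j s0')) v g) (evF htr (j s0') a) =
      𝔞 (plc (G.fld π (j s0')) v g)) :
    loc1 (Fn π' (rhoT p)) v (kumG p hπ' (pullG hj a - c')) ∈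
      H1ur v (rv Dq (Fn π' (rhoT p)) v) := by
  have hp : p.Prime := Fact.out
  obtain ⟨t, ht⟩ := exists_ord_eq (finite_plc (F := G.fld π (j s0')) v).toFinset
    (fun w => - (m : ℤ) * 𝔞 w)
  have e1 : kumG p hπ' (pullG hj a - c') =
      kumG p hπ' (pullG hj a - c' - p • pullG hj (ofF htr (j s0') t)) := by
    rw [map_sub (kumG p hπ') _ (p • _), kumG_nsmul, sub_zero]
  rw [e1, loc1_kumG]
  refine kumL_mem_H1ur hpS hπS' hπ' hv _ fun s => ?_
  obtain ⟨g, rfl⟩ := htr'.2 s0' s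
  obtain ⟨e, he, hw, -⟩ := exists_w_eq (F := G.fld π (j s0')) v g
  rw [vl_resL, vl_sub, vl_sub, vl_nsmul, vl_pullG, vl_pullG, hj g s0', vl_eq htr, vl_eq htr,
    evF_ofF]
  have hc0 : vl c' (π' g s0') ≠ 0 := vl_ne_zero _ _
  have h1 : (B.wq v).w (vl c' (π' g s0')) = (1 + p * m) * 𝔞 (plc (G.fld π (j s0')) v g) * e := by
    have h2 := congrArg (B.wq v).w (hc' g)
    rw [RVal.w_pow hc0, hw, hc1] at h2
    have hpk : ((p ^ k : ℕ) : ℝ) ≠ 0 := by exact_mod_cast (pow_pos hp.pos k).ne'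
    apply mul_left_cancel₀ hpk
    rw [h2]
    push_cast
    ring
  have n1 : g (((evF htr (j s0') a : (G.fld π (j s0'))ˣ) : G.fld π (j s0')) : Qb) ≠ 0 := by
    simp
  have n2 : g (((t : (G.fld π (j s0'))ˣ) : G.fld π (j s0')) : Qb) ≠ 0 := by
    simp
  rw [RVal.w_div (div_ne_zero n1 hc0) (pow_ne_zero _ n2), RVal.w_div n1 hc0, RVal.w_pow n2,
    hw, hw, h1, ha, ht _ (by simp)]
  push_cast
  ring

theorem finMod_rhoT (hpS : pPrime p ∈ S) : FinMod p (lvlS S) (rhoT p) where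
  fin := inferInstance
  tors a := by
    rw [nsmul_eq_mul, ZMod.natCast_self, zero_mul]
  smooth := smooth_rhoT_lvlS S hpS

/-- **(CAP) for `μ_p`** -/
theorem capT' (S : Finset Nat.Primes) (hpS : pPrime p ∈ S) {Sg : Type} [Fintype Sg]
    (π : GQ →* Equiv.Perm Sg)
    (hπ : Good S (rhoT p) p π) (u : Fam (Fn π (rhoT p))) (hu : u ∈ FamG S (Fn π (rhoT p))) :
    ∃ (Sg' : Type) (_ : Fintype Sg') (π' : GQ →* Equiv.Perm Sg') (j : Sg' → Sg)
      (hj : IsSetMap π π' j), Good S (rhoT p) p π' ∧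
        famMap (isHom_pull (rhoT p) hj) u ∈ GlobG S (Fn π' (rhoT p)) := by
  obtain ⟨s0⟩ := hπ.trans.1
  have hπQ : SmoothSet π lvlQ := by
    obtain ⟨U, hU, hu⟩ := hπ.smooth
    exact ⟨U, lvlS_sets_subset S hU, hu⟩
  have hNF := G.numberField_fld hπQ s0
  obtain ⟨𝔞, h𝔞⟩ := exists_divRel hπ.trans s0 hπQ hpS hπ.smooth u hu
  obtain ⟨k, m, c1, hc1⟩ := exists_pow_principal p 𝔞
  have hpk : 0 < p ^ k := pow_pos (Fact.out : p.Prime).pos k
  obtain ⟨c, hc⟩ := IsAlgClosed.exists_pow_nat_eq ((c1 : G.fld π s0) : Qb) hpk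
  have hc0 : c ≠ 0 := by
    rintro rfl
    rw [zero_pow hpk.ne'] at hc
    exact c1.ne_zero (Subtype.ext hc.symm)
  obtain ⟨U, hU, hUc⟩ := exists_level_of_root hpS hπ.smooth s0 k c1
    (fun w => ⟨_, by rw [hc1 w, mul_assoc]⟩) c hc
  obtain ⟨Sg', hFin, π', j, hj, hgood, hst⟩ :=
    exists_good_le S (rhoT p) hpS (finMod_rhoT hpS) π hπ.smooth s0 U hU
  obtain ⟨t⟩ := hgood.trans.1
  obtain ⟨h, hh⟩ := hπ.trans.2 (j t) s0
  obtain ⟨s0', rfl⟩ : ∃ s0', j s0' = s0 := ⟨π' h t, by rw [hj h t, hh]⟩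
  have hπQ' : SmoothSet π' lvlQ := by
    obtain ⟨U, hU, hu⟩ := hgood.smooth
    exact ⟨U, lvlS_sets_subset S hU, hu⟩
  obtain ⟨c', hc'⟩ := exists_EG_of_fixed hgood.trans s0' c hc0 fun g hg => hUc g (hst g s0' hg)
  refine ⟨Sg', hFin, π', j, hj, hgood, (mem_GlobG _ _).2 ⟨kumG p hπQ' c', fun v hv => ?_⟩⟩
  obtain ⟨a, ha1, ha2⟩ := h𝔞 v hv
  have h1 := H1c_mem_H1ur v ((isHom_pull (rhoT p) hj).res (Dq v).subtype) ha1
  have h2 := loc1_kumG_sub_mem_H1ur hj hπ.trans hgood.trans hπQ' hgood.smooth hpS s0' 𝔞 k m c1 hc1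
    c' (fun g => by rw [hc' g, ← map_pow, hc]) hv a ha2
  rw [map_sub, H1c_pull_loc1 (rhoT p) hj, kumG_pull p hπQ hπQ' hj] at h1
  rw [map_sub, map_sub] at h2
  have h3 := add_mem h1 h2
  rw [sub_add_sub_cancel] at h3
  exact h3

end Fermat.Agent.S55.D
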