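import Fermat.Agent.S55.D.Ar.Approx
import Fermat.Agent.S55.C.EC
import Fermat.Agent.S55.C.Count

/-!
# S55 / layer D-AR : the count `count_T'`   (assembly PROVED from the keys below)

`π` good for `T = rhoT p`, `F = G.fld π s0`, `S_F = SF F S`, `M₀ = Fn π (rhoT p)`.

## key S55/D-AR-CARD : `card_quot_le_of_rel`  (~50 lines, pure group theory)
`f : A ⧸ A' → B ⧸ B'`, `f x = mk (b (out x))`, `b a` chosen by `hex`; injective by `hR` (`QuotientAddGroup.eq`); `B ⧸ B'` finite (`AddSubgroup.index`, `Nat.finite_of_card_ne_zero`), `Nat.card_le_card_of_injective`.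
## key S55/D-AR-II : `sub_mem_GlobG_of_divRel`  (~100 lines)
`x ∈ Fˣ` with `redP m w - redP m' w = ord w x` for `w ∉ S_F` (`C.mem_CS`).  `mem_GlobG` with the class `kumG (ofF x)`.  For `v ∉ S`: `a`, `a'` from the two `DivRel`;
`n v - n' v - loc (kum (ofF x)) = (n v - loc kum a) - (n' v - loc kum a') + loc kum (a - a' - ofF x)`; the last one is in `H1ur` by `loc1_kumG_mem_H1ur`:
`ord w (evF (a - a' - ofF x)) = m w - m' w - ord w x`, which is `0` in `ZMod p` for `w = plc F v g ∉ S_F` (`plc_mem_SF_iff`); `ZMod.intCast_zmod_eq_zero_iff_dvd` / `(ZMod.intCast_cast..)`.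
## key S55/D-AR-I : `exists_X`  (~150 lines)
`φ : Additive Fˣ →+ H¹(lvlQ, M₀)`, `φ x = kumG (ofF x)`; `ker φ = pows F p` (`kumG_eq_zero_iff`, `evF_nsmul`).  `Y = φ (VS p S_F)`; `Nat.card Y = (pows).relIndex VS` (`Subgroup.relIndex_ker` / `AddSubgroup.relIndex_ker`,
after `Subgroup.toAddSubgroup`, or use `MonoidHom` into `Multiplicative`).  Every `y ∈ Y` is `infl1 x` (`mem_range_infl1_iff` with `smooth_Fn (smooth_rhoT_lvlS ..) hπS`; `loc1_kumG_mem_H1ur`; `w = plc F v g ∉ S_F` for `v ∉ S`).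
`X = Y.comap (infl1 S M₀)`;  `X ≃ Y` (`infl1_injective`).  Finite since `relIndex ≠ 0` (`Nat.finite_of_card_ne_zero`).
## key S55/D-AR-III-a : `exists_nsmul_of_mem_lp`  (~100 lines)
`exists_of_orbit` for `G' = Dq v`, `P s x := x ^ p = vl a s`.  `s = π g s0`, `B.loc_pow (plc_spec F v g) p (evF a)` gives `t ∈ Fx (HH v (emb F g))`, `t^p = g (evF a) = vl a s` (`vl_eq`);
`d ∈ Dq v` with `π d s = s` lies in `HH v (emb F g)` (`B.mem_HH`: `d (g x) = g x` for `x ∈ F` since `g⁻¹ d g ∈ G.stab π s0`, `G.mem_fld`).  Then `vl_ext`.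
## key S55/D-AR-III-b : `prod_card_H1_le`  (~200 lines)
`Φ : Fˣ →* Multiplicative (∀ v : S, H¹(D_v, M₀))`, `Φ x v = kumL v (resL v (ofF x))`.  Onto: `y_v = kumL b_v`; `exists_approx_EL S b r`, `r = max_v 2 w_v(p)` (or `r = 2`: `w_v p ≤ 1`; `B.wq_q`, `w_v p = 0` if `v ≠ p`);
`exists_nsmul_of_close` for `b_v - resL a`.  `lpS p S_F ≤ ker Φ` (`exists_nsmul_of_mem_lp`, `C.mem_lpS_iff`, `plc_mem_SF_iff`).  So `Nat.card (∀ v : S, _) = (ker Φ).index ≤ (lpS).index`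
(`Subgroup.index_ker`, `Subgroup.index_dvd_of_le`/`Nat.le_of_dvd`), `Nat.card_pi`, `Finset.prod_coe_sort`/`Finset.prod_attach`.  Finiteness: the product is finite and non empty, each factor is a quotient of `Fˣ ⧸ lpS`.
-/

set_option autoImplicit false

noncomputable section

namespace Fermat.Agent.S55.D

open ExtCitation T Fermat.Agent.S05 Fermat.Agent.S14 NumberField

/-- [S55/D-AR-CARD] -/
theorem card_quot_le_of_rel {A B : Type*} [AddCommGroup A] [AddCommGroup B] (A' : AddSubgroup A)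
    (B' : AddSubgroup B) (hB : B'.index ≠ 0) (R : A → B → Prop) (hex : ∀ a, ∃ b, R a b)
    (hR : ∀ a a' b b', R a b → R a' b' → b - b' ∈ B' → a - a' ∈ A') :
    Finite (A ⧸ A') ∧ Nat.card (A ⧸ A') ≤ B'.index := by
  choose b hb using hex
  have hfin : Finite (B ⧸ B') := Nat.finite_of_card_ne_zero hB
  let f : A ⧸ A' → B ⧸ B' := fun x => (b x.out : B ⧸ B')
  have hf : Function.Injective f := by
    intro x y hxy
    have h1 : b x.out - b y.out ∈ B' := by
      have h2 := B'.neg_mem (QuotientAddGroup.eq.1 hxy)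
      convert h2 using 1
      abel
    have h2 := hR _ _ _ _ (hb x.out) (hb y.out) h1
    rw [← QuotientAddGroup.out_eq' x, ← QuotientAddGroup.out_eq' y, QuotientAddGroup.eq]
    have h3 := A'.neg_mem h2
    convert h3 using 1
    abel
  exact ⟨Finite.of_injective f hf, Nat.card_le_card_of_injective f hf⟩

/-- reduction of a divisor modulo `p` -/
def redP (p : ℕ) {F : Type*} [Field F] [NumberField F] (m : Pl F →₀ ℤ) : Pl F →₀ ZMod p :=
  m.mapRange (Int.cast : ℤ → ZMod p) Int.cast_zero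

@[simp] theorem redP_apply (p : ℕ) {F : Type*} [Field F] [NumberField F] (m : Pl F →₀ ℤ)
    (w : Pl F) : redP p m w = (m w : ZMod p) := rfl

variable {p : ℕ} [Fact p.Prime] {S : Finset Nat.Primes}
variable {Sg : Type} [Fintype Sg] {π : GQ →* Equiv.Perm Sg} (htr : IsTrans π) (s0 : Sg)
  (hπ : SmoothSet π lvlQ) [NumberField (G.fld π s0)]

/-- [S55/D-AR-II] -/
theorem sub_mem_GlobG_of_divRel (hpS : pPrime p ∈ S) (hπS : SmoothSet π (lvlS S))
    {n n' : Fam (Fn π (rhoT p))} {m m' : Pl (G.fld π s0) →₀ ℤ} (h : DivRel htr s0 hπ S n m)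
    (h' : DivRel htr s0 hπ S n' m')
    (hm : redP p m - redP p m' ∈ C.CS p (SF (G.fld π s0) S)) :
    n - n' ∈ GlobG S (Fn π (rhoT p)) := by
  have : NeZero p := ⟨(Fact.out : p.Prime).ne_zero⟩
  obtain ⟨x, hx⟩ := (C.mem_CS p _ _).1 hm
  rw [mem_GlobG]
  refine ⟨kumG p hπ (ofF htr s0 x), fun v hv => ?_⟩
  obtain ⟨a, ha, hao⟩ := h v hv
  obtain ⟨a', ha', hao'⟩ := h' v hv
  have key : loc1 (Fn π (rhoT p)) v (kumG p hπ (a - a' - ofF htr s0 x)) ∈
      H1ur v (rv Dq (Fn π (rhoT p)) v) := by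
    refine loc1_kumG_mem_H1ur htr s0 hπ hpS hπS hv _ fun g => ?_
    rw [evF_sub, evF_sub, evF_ofF, ord_div, ord_div, hao, hao']
    have hw : plc (G.fld π s0) v g ∉ SF (G.fld π s0) S := fun hmem => hv (plc_mem_SF_iff.1 hmem)
    have h1 := hx _ hw
    rw [Finsupp.sub_apply, redP_apply, redP_apply] at h1
    rw [← ZMod.intCast_zmod_eq_zero_iff_dvd]
    push_cast
    rw [h1, sub_self]
  have e : (n - n') v - loc1 (Fn π (rhoT p)) v (kumG p hπ (ofF htr s0 x)) =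
      (n v - loc1 (Fn π (rhoT p)) v (kumG p hπ a)) -
        (n' v - loc1 (Fn π (rhoT p)) v (kumG p hπ a')) +
        loc1 (Fn π (rhoT p)) v (kumG p hπ (a - a' - ofF htr s0 x)) := by
    rw [map_sub, map_sub, map_sub, map_sub, Pi.sub_apply]
    abel
  rw [e]
  exact add_mem (sub_mem ha ha') key

include htr hπ in
/-- **(ii)** -/
theorem card_RQ_le (hpS : pPrime p ∈ S) (hπS : SmoothSet π (lvlS S))
    (hc : (C.CS p (SF (G.fld π s0) S)).index ≠ 0) :
    Finite (RQ S (Fn π (rhoT p))) ∧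
      Nat.card (RQ S (Fn π (rhoT p))) ≤ (C.CS p (SF (G.fld π s0) S)).index := by
  refine card_quot_le_of_rel _ _ hc
    (fun n b => ∃ m, DivRel htr s0 hπ S (n : Fam (Fn π (rhoT p))) m ∧ b = redP p m) ?_ ?_
  · intro n
    obtain ⟨m, hm⟩ := exists_divRel htr s0 hπ hpS hπS n.1 n.2
    exact ⟨_, m, hm, rfl⟩
  · rintro n n' _ _ ⟨m, hm, rfl⟩ ⟨m', hm', rfl⟩ h
    rw [AddSubgroup.mem_addSubgroupOf]
    exact sub_mem_GlobG_of_divRel htr s0 hπ hpS hπS hm hm' h

include htr hπ in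
/-- [S55/D-AR-I] **(i)** -/
theorem exists_X (hpS : pPrime p ∈ S) (hπS : SmoothSet π (lvlS S))
    (hc : (pows (G.fld π s0) p).relIndex (C.VS p (SF (G.fld π s0) S)) ≠ 0) :
    ∃ X : AddSubgroup (H1 (lvlS S) (Fn π (rhoT p))), Finite X ∧
      (pows (G.fld π s0) p).relIndex (C.VS p (SF (G.fld π s0) S)) ≤ Nat.card X := by
  let Φ : (G.fld π s0)ˣ →* Multiplicative (H1 lvlQ (Fn π (rhoT p))) :=
    { toFun := fun x => Multiplicative.ofAdd (kumG p hπ (ofF htr s0 x))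
      map_one' := by
        have h1 : ofF htr s0 (1 : (G.fld π s0)ˣ) = 0 := by simp [ofF]
        rw [h1, map_zero]
        rfl
      map_mul' := fun x y => by
        rw [ofF_mul, map_add]
        rfl }
  have hΦ : ∀ x, Φ x = Multiplicative.ofAdd (kumG p hπ (ofF htr s0 x)) := fun _ => rfl
  have hker : Φ.ker = pows (G.fld π s0) p := by
    ext x
    rw [MonoidHom.mem_ker, hΦ]
    constructor
    · intro h
      have h1 : kumG p hπ (ofF htr s0 x) = 0 := h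
      obtain ⟨c, hc⟩ := (kumG_eq_zero_iff p hπ _).1 h1
      refine ⟨evF htr s0 c, ?_⟩
      change evF htr s0 c ^ p = x
      rw [← evF_nsmul, hc, evF_ofF]
    · rintro ⟨y, rfl⟩
      have h1 : kumG p hπ (ofF htr s0 (y ^ p)) = 0 := by
        rw [ofF_pow]
        exact kumG_nsmul p hπ _
      change Multiplicative.ofAdd (kumG p hπ (ofF htr s0 (y ^ p))) = 1
      rw [h1]
      rfl
  have hcard : (pows (G.fld π s0) p).relIndex (C.VS p (SF (G.fld π s0) S)) =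
      Nat.card ((C.VS p (SF (G.fld π s0) S)).map Φ) := by
    rw [← hker, Subgroup.relIndex_ker]
  have hρ : Smooth (lvlS S) (Fn π (rhoT p)) := smooth_Fn (smooth_lvlS_rhoT p hpS) hπS
  let X : AddSubgroup (H1 (lvlS S) (Fn π (rhoT p))) :=
    (Subgroup.toAddSubgroup' ((C.VS p (SF (G.fld π s0) S)).map Φ)).comap (infl1 S (Fn π (rhoT p)))
  have hX : ∀ x, x ∈ X ↔ Multiplicative.ofAdd (infl1 S (Fn π (rhoT p)) x) ∈
      (C.VS p (SF (G.fld π s0) S)).map Φ := fun _ => Iff.rfl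
  let f : X → (C.VS p (SF (G.fld π s0) S)).map Φ :=
    fun x => ⟨Multiplicative.ofAdd (infl1 S (Fn π (rhoT p)) x), (hX x).1 x.2⟩
  have hf : Function.Bijective f := by
    constructor
    · intro x y hxy
      have h1 : infl1 S (Fn π (rhoT p)) x = infl1 S (Fn π (rhoT p)) y :=
        Multiplicative.ofAdd.injective (congrArg Subtype.val hxy)
      exact Subtype.ext (infl1_injective S _ h1)
    · rintro ⟨_, a, ha, rfl⟩
      obtain ⟨y, hy⟩ := (mem_range_infl1_iff S _ hρ (kumG p hπ (ofF htr s0 a))).2 fun v hv =>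
        loc1_kumG_mem_H1ur htr s0 hπ hpS hπS hv _ fun g => by
          rw [evF_ofF]
          exact ha _ fun hmem => hv (plc_mem_SF_iff.1 hmem)
      have hyX : y ∈ X := (hX y).2 ⟨a, ha, by rw [hy, hΦ]⟩
      exact ⟨⟨y, hyX⟩, Subtype.ext (by
        change Multiplicative.ofAdd (infl1 S (Fn π (rhoT p)) y) = Φ a
        rw [hy, hΦ])⟩
  have hXcard : Nat.card X = Nat.card ((C.VS p (SF (G.fld π s0) S)).map Φ) :=
    Nat.card_congr (Equiv.ofBijective f hf)
  refine ⟨X, Nat.finite_of_card_ne_zero ?_, ?_⟩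
  · rw [hXcard, ← hcard]
    exact hc
  · rw [hXcard, ← hcard]

/-- [S55/D-AR-III-a] elements which are local `p`-th powers at all places over `v` -/
theorem exists_nsmul_of_mem_lp (v : Nat.Primes) (a : EG π)
    (h : ∀ g, evF htr s0 a ∈ C.lp p (plc (G.fld π s0) v g)) :
    ∃ c : EL π v, p • c = resL π v a := by
  obtain ⟨c, hc⟩ := exists_of_orbit (G' := ↥(Dq v)) (α := alQ.comp (Dq v).subtype)
    (π' := π.comp (Dq v).subtype) (fun s x => x ^ p = vl a s)
    (fun g s x hx => by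
      change ((g : GQ) x) ^ p = vl a (π (g : GQ) s)
      rw [vl_applyG, ← hx, map_pow])
    (fun s => by
      obtain ⟨g, rfl⟩ := htr.2 s0 s
      obtain ⟨t, ht, htp⟩ := (B.loc_pow (plc_spec (G.fld π s0) v g) p (evF htr s0 a)).1 (h g)
      have htp' : t ^ p = vl a (π g s0) := by
        rw [vl_eq htr s0 a g, htp]
        rfl
      refine ⟨t, ?_, ?_, htp'⟩
      · rintro rfl
        rw [zero_pow (Fact.out : p.Prime).ne_zero] at htp'
        exact vl_ne_zero a _ htp'.symm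
      · intro d hd
        have hd' : π (d : GQ) (π g s0) = π g s0 := hd
        refine ht ⟨(d : GQ), (B.mem_HH v _).2 ⟨d.2, fun x => ?_⟩⟩
        have h1 : g⁻¹ * (d : GQ) * g ∈ G.stab π s0 := by
          rw [G.mem_stab, map_mul, map_mul, Equiv.Perm.mul_apply, Equiv.Perm.mul_apply, hd',
            map_inv, Equiv.Perm.inv_eq_iff_eq]
        have h2 := (G.mem_fld π).1 x.2 _ h1
        rw [AlgEquiv.mul_apply, AlgEquiv.mul_apply] at h2
        have h3 := congrArg g h2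
        rw [← AlgEquiv.mul_apply, mul_inv_cancel, AlgEquiv.one_apply] at h3
        exact h3)
  refine ⟨c, vl_ext fun s => ?_⟩
  rw [vl_nsmul, vl_resL]
  exact hc s

/-- the map `a ↦ (kum_v (res_v a))_{v ∈ S}` -/
def IIIb_Psi (p : ℕ) [Fact p.Prime] (S : Finset Nat.Primes) (hπ : SmoothSet π lvlQ) :
    EG π →+ (∀ v : ↥S, H1 (lvlD v.1) (rv Dq (Fn π (rhoT p)) v.1)) :=
  AddMonoidHom.pi fun v => (kumL p hπ v.1).comp (resL π v.1)

theorem IIIb_Psi_apply (a : EG π) (v : ↥S) :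
    IIIb_Psi p S hπ a v = kumL p hπ v.1 (resL π v.1 a) := rfl

include htr in
theorem IIIb_Psi_surjective : Function.Surjective (IIIb_Psi p S hπ) := by
  classical
  intro y
  have hex : ∀ v : Nat.Primes, ∃ b : EL π v, ∀ h : v ∈ S, kumL p hπ v b = y ⟨v, h⟩ := by
    intro v
    by_cases h : v ∈ S
    · obtain ⟨b, hb⟩ := kumL_surjective p hπ v (y ⟨v, h⟩)
      exact ⟨b, fun _ => hb⟩
    · exact ⟨0, fun h' => absurd h' h⟩
  choose b hb using hex
  set r : ℝ := ∑ v ∈ S, 2 * |(B.wq v).w ((p : ℕ) : Qb)| with hr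
  obtain ⟨a, ha⟩ := exists_approx_EL htr hπ S b r
  refine ⟨a, funext fun v => ?_⟩
  rw [IIIb_Psi_apply, ← hb v.1 v.2]
  have hle : 2 * (B.wq v.1).w ((p : ℕ) : Qb) ≤ r := by
    have h1 : 2 * |(B.wq v.1).w ((p : ℕ) : Qb)| ≤ r :=
      Finset.single_le_sum (f := fun v : Nat.Primes => 2 * |(B.wq v).w ((p : ℕ) : Qb)|)
        (fun _ _ => by positivity) v.2
    have h2 := le_abs_self ((B.wq v.1).w ((p : ℕ) : Qb))
    linarith
  obtain ⟨c, hc⟩ := exists_nsmul_of_close (p := p) v.1 (b v.1 - resL π v.1 a) (fun s => by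
    rw [vl_sub, vl_resL]
    rcases ha v.1 v.2 s with h | h
    · exact Or.inl h
    · exact Or.inr (hle.trans_lt h))
  have h3 : kumL p hπ v.1 (b v.1 - resL π v.1 a) = 0 := by
    rw [← hc]
    exact kumL_nsmul p hπ v.1 c
  rw [map_sub, sub_eq_zero] at h3
  exact h3.symm

include htr hπ in
/-- [S55/D-AR-III-b] **(iii)** -/
theorem prod_card_H1_le (hc : (C.lpS p (SF (G.fld π s0) S)).index ≠ 0) :
    (∀ v ∈ S, Finite (H1 (lvlD v) (rv Dq (Fn π (rhoT p)) v))) ∧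
      ∏ v ∈ S, Nat.card (H1 (lvlD v) (rv Dq (Fn π (rhoT p)) v)) ≤
        (C.lpS p (SF (G.fld π s0) S)).index := by
  let Φ : (G.fld π s0)ˣ →* Multiplicative (∀ v : ↥S, H1 (lvlD v.1) (rv Dq (Fn π (rhoT p)) v.1)) :=
    MonoidHom.mk' (fun x => Multiplicative.ofAdd (IIIb_Psi p S hπ (ofF htr s0 x))) (fun x y => by
      rw [ofF_mul, map_add]
      rfl)
  have hΦ : Function.Surjective Φ := by
    intro y
    obtain ⟨a, ha⟩ := IIIb_Psi_surjective (p := p) (S := S) htr hπ y.toAdd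
    refine ⟨evF htr s0 a, ?_⟩
    change Multiplicative.ofAdd (IIIb_Psi p S hπ (ofF htr s0 (evF htr s0 a))) = y
    rw [ofF_evF, ha]
    rfl
  have hle : C.lpS p (SF (G.fld π s0) S) ≤ Φ.ker := by
    intro x hx
    rw [C.mem_lpS_iff] at hx
    rw [MonoidHom.mem_ker]
    change Multiplicative.ofAdd (IIIb_Psi p S hπ (ofF htr s0 x)) = 1
    rw [ofAdd_eq_one]
    funext v
    rw [IIIb_Psi_apply]
    obtain ⟨c, hc⟩ := exists_nsmul_of_mem_lp (p := p) htr s0 v.1 (ofF htr s0 x) (fun g => by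
      rw [evF_ofF]
      exact hx _ (plc_mem_SF_iff.2 v.2))
    rw [← hc]
    exact kumL_nsmul p hπ v.1 c
  have hdvd := Subgroup.index_dvd_of_le hle
  have hcard : Φ.ker.index =
      Nat.card (∀ v : ↥S, H1 (lvlD v.1) (rv Dq (Fn π (rhoT p)) v.1)) := by
    rw [Subgroup.index_ker, MonoidHom.range_eq_top.2 hΦ, Subgroup.card_top]
    rfl
  have hne : Nat.card (∀ v : ↥S, H1 (lvlD v.1) (rv Dq (Fn π (rhoT p)) v.1)) ≠ 0 := by
    rw [← hcard]
    intro h0
    rw [h0, zero_dvd_iff] at hdvd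
    exact hc hdvd
  have hfin : Finite (∀ v : ↥S, H1 (lvlD v.1) (rv Dq (Fn π (rhoT p)) v.1)) :=
    Nat.finite_of_card_ne_zero hne
  constructor
  · intro v hv
    exact Finite.of_surjective
      (fun f : (∀ v : ↥S, H1 (lvlD v.1) (rv Dq (Fn π (rhoT p)) v.1)) => f ⟨v, hv⟩)
      (Function.surjective_eval _)
  · rw [← Finset.prod_coe_sort S (fun v => Nat.card (H1 (lvlD v) (rv Dq (Fn π (rhoT p)) v))),
      ← Nat.card_pi, ← hcard]
    exact Nat.le_of_dvd (Nat.pos_of_ne_zero hc) hdvd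

theorem smoothSet_lvlQ_of_lvlS {Sg : Type*} {π : GQ →* Equiv.Perm Sg} {S : Finset Nat.Primes}
    (h : SmoothSet π (lvlS S)) : SmoothSet π lvlQ := by
  obtain ⟨U, hU, hu⟩ := h
  exact ⟨U, lvlS_sets_subset S hU, hu⟩

/-- **(COUNT)** -/
theorem count_T' (S : Finset Nat.Primes) (hp2 : p ≠ 2) (hpS : pPrime p ∈ S) {Sg : Type} [Fintype Sg]
    (π : GQ →* Equiv.Perm Sg) (hπ : Good S (rhoT p) p π) :
    ∃ c k : ℕ, 0 < c ∧
      (Finite (RQ S (Fn π (rhoT p))) ∧ Nat.card (RQ S (Fn π (rhoT p))) ≤ c) ∧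
      (∃ X : AddSubgroup (H1 (lvlS S) (Fn π (rhoT p))), Finite X ∧ c * p ^ k ≤ Nat.card X) ∧
      (∀ v ∈ S, Finite (H1 (lvlD v) (rv Dq (Fn π (rhoT p)) v))) ∧
      ∏ v ∈ S, Nat.card (H1 (lvlD v) (rv Dq (Fn π (rhoT p)) v)) ≤ p ^ (2 * k) := by
  obtain ⟨s0⟩ := hπ.trans.1
  have hπQ := smoothSet_lvlQ_of_lvlS hπ.smooth
  haveI := G.numberField_fld hπQ s0
  obtain ⟨ζ, hζ, -⟩ := G.exists_zeta p s0 (fun g h => (hπ.triv g s0 h).2) hπQ
  obtain ⟨h1, h2⟩ := C.EC hζ (SF (G.fld π s0) S)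
  obtain ⟨h3, h4⟩ := C.index_lpS_le hp2 hζ (SF (G.fld π s0) S) (mem_SF_of_not_tame hpS)
  have hp0 : p ^ ((SF (G.fld π s0) S).card + C.rI (G.fld π s0)) ≠ 0 :=
    pow_ne_zero _ (Fact.out : p.Prime).ne_zero
  obtain ⟨X, hX, hX'⟩ := exists_X hπ.trans s0 hπQ hpS hπ.smooth (by rw [h2]; exact mul_ne_zero h1 hp0)
  obtain ⟨h5, h6⟩ := prod_card_H1_le (p := p) (S := S) hπ.trans s0 hπQ h3
  refine ⟨_, (SF (G.fld π s0) S).card + C.rI (G.fld π s0), Nat.pos_of_ne_zero h1,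
    card_RQ_le hπ.trans s0 hπQ hpS hπ.smooth h1, ⟨X, hX, by rw [← h2]; exact hX'⟩, h5, ?_⟩
  refine h6.trans (h4.trans (le_of_eq ?_))
  rw [mul_add]

end Fermat.Agent.S55.D
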