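import Fermat.Agent.S55.D.Zero
import Fermat.Agent.S55.T.Inst
import Fermat.Agent.S55.G.DictGlob
import Fermat.Agent.S55.B.Cpt

/-!
# S55 / layer D-AR (arithmetic of layer D) : Kummer maps, values of invariant functions

`π : GQ →* Perm Sg`.  `EG π = H⁰(GQ, Fn π 𝔾_m)`, `EL π v = H⁰(D_v, Fn π 𝔾_m)`,
`kumG : EG π ↠ H¹(GQ, Fn π μ_p)`, `kumL v : EL π v ↠ H¹(D_v, Fn π μ_p)`, `resL v : EG π → EL π v`.
`vl b s : Qb` is the value of the invariant function `b` at `s` (for any group `G'` acting through `α : G' →* RingAut Qb`).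
All of this file is formal.
-/

set_option autoImplicit false

noncomputable section

namespace Fermat.Agent.S55.D

open ExtCitation T

/-! ### values -/

section Val

variable {G' : Type*} [Group G'] {α : G' →* RingAut Qb} {Sg : Type*} {π' : G' →* Equiv.Perm Sg}

/-- the value of an invariant function -/
def vl (b : ↥(H0 (Fn π' (gm α)))) (s : Sg) : Qb := (((b.1 s).toMul : Qbˣ) : Qb)

theorem vl_ne_zero (b : ↥(H0 (Fn π' (gm α)))) (s : Sg) : vl b s ≠ 0 := Units.ne_zero _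

@[simp] theorem vl_zero (s : Sg) : vl (0 : ↥(H0 (Fn π' (gm α)))) s = 1 := rfl

@[simp] theorem vl_add (a b : ↥(H0 (Fn π' (gm α)))) (s : Sg) : vl (a + b) s = vl a s * vl b s := rfl

@[simp] theorem vl_neg (a : ↥(H0 (Fn π' (gm α)))) (s : Sg) : vl (-a) s = (vl a s)⁻¹ := by
  change (((((a.1 s).toMul : Qbˣ))⁻¹ : Qbˣ) : Qb) = _
  rw [Units.val_inv_eq_inv_val]
  rfl

@[simp] theorem vl_sub (a b : ↥(H0 (Fn π' (gm α)))) (s : Sg) : vl (a - b) s = vl a s / vl b s := by
  rw [sub_eq_add_neg, vl_add, vl_neg, div_eq_mul_inv]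

@[simp] theorem vl_nsmul (n : ℕ) (a : ↥(H0 (Fn π' (gm α)))) (s : Sg) :
    vl (n • a) s = vl a s ^ n := by
  induction n with
  | zero => simp
  | succ n ih => rw [succ_nsmul, vl_add, ih, pow_succ]

theorem vl_apply (b : ↥(H0 (Fn π' (gm α)))) (g : G') (s : Sg) :
    vl b (π' g s) = α g (vl b s) := by
  have h := G.H0_apply b.2 g s
  unfold vl
  rw [h]
  rfl

theorem vl_ext {a b : ↥(H0 (Fn π' (gm α)))} (h : ∀ s, vl a s = vl b s) : a = b := by
  apply Subtype.ext
  funext s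
  apply Additive.toMul.injective
  exact Units.ext (h s)

/-- an invariant function from its values -/
def ofVl (f : Sg → Qb) (h0 : ∀ s, f s ≠ 0) (heq : ∀ g s, f (π' g s) = α g (f s)) :
    ↥(H0 (Fn π' (gm α))) :=
  ⟨fun s => Additive.ofMul (Units.mk0 (f s) (h0 s)), G.mem_H0_Fn_iff.2 fun g s => by
    apply Additive.toMul.injective
    apply Units.ext
    exact heq g s⟩

@[simp] theorem vl_ofVl (f : Sg → Qb) (h0 : ∀ s, f s ≠ 0) (heq : ∀ g s, f (π' g s) = α g (f s))
    (s : Sg) : vl (ofVl (π' := π') (α := α) f h0 heq) s = f s := rfl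

end Val

/-! ### the Kummer maps -/

section Kum

variable {Sg : Type*} (π : GQ →* Equiv.Perm Sg)

/-- global invariant functions `= Fˣ` -/
abbrev EG : Type _ := ↥(H0 (Fn π (gm alQ)))

/-- local invariant functions `= ∏_{w ∣ v} F_wˣ` -/
abbrev EL (v : Nat.Primes) : Type _ :=
  ↥(H0 (Fn (π.comp (Dq v).subtype) (gm (alQ.comp (Dq v).subtype))))

/-- restriction -/
def resL (v : Nat.Primes) : EG π →+ EL π v := res0 (Fn π (gm alQ)) (Dq v).subtype

variable {π}

@[simp] theorem vl_resL (v : Nat.Primes) (a : EG π) (s : Sg) : vl (resL π v a) s = vl a s := rfl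

theorem vl_applyG (a : EG π) (g : GQ) (s : Sg) : vl a (π g s) = g (vl a s) := vl_apply a g s

theorem vl_applyL {v : Nat.Primes} (b : EL π v) {d : GQ} (hd : d ∈ Dq v) (s : Sg) :
    vl b (π d s) = d (vl b s) := vl_apply b (⟨d, hd⟩ : ↥(Dq v)) s

variable [Finite Sg] (p : ℕ) [Fact p.Prime] (hπ : SmoothSet π lvlQ)

/-- the global Kummer map -/
def kumG : EG π →+ H1 lvlQ (Fn π (rhoT p)) := (kumData_Q p).kum π galAct_Q hπ

/-- the local Kummer map -/
def kumL (v : Nat.Primes) : EL π v →+ H1 (lvlD v) (rv Dq (Fn π (rhoT p)) v) :=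
  (kumData_D p v).kum (π.comp (Dq v).subtype) (galAct_D v) (hπ.comap (Dq v).subtype)

theorem kumG_surjective : Function.Surjective (kumG p hπ) :=
  (kumData_Q p).kum_surjective π galAct_Q hπ

theorem kumL_surjective (v : Nat.Primes) : Function.Surjective (kumL p hπ v) :=
  (kumData_D p v).kum_surjective (π.comp (Dq v).subtype) (galAct_D v) (hπ.comap (Dq v).subtype)

theorem kumG_eq_zero_iff (b : EG π) : kumG p hπ b = 0 ↔ ∃ c : EG π, p • c = b :=
  (kumData_Q p).kum_eq_zero_iff π galAct_Q hπ b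

theorem kumL_eq_zero_iff (v : Nat.Primes) (b : EL π v) :
    kumL p hπ v b = 0 ↔ ∃ c : EL π v, p • c = b :=
  (kumData_D p v).kum_eq_zero_iff (π.comp (Dq v).subtype) (galAct_D v)
    (hπ.comap (Dq v).subtype) b

theorem loc1_kumG (v : Nat.Primes) (a : EG π) :
    loc1 (Fn π (rhoT p)) v (kumG p hπ a) = kumL p hπ v (resL π v a) :=
  (kumData_Q p).kum_res π galAct_Q hπ (Dq v).subtype a

theorem kumG_nsmul (a : EG π) : kumG p hπ (p • a) = 0 := (kumG_eq_zero_iff p hπ _).2 ⟨a, rfl⟩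

theorem kumL_nsmul (v : Nat.Primes) (a : EL π v) : kumL p hπ v (p • a) = 0 :=
  (kumL_eq_zero_iff p hπ v _).2 ⟨a, rfl⟩

variable {Sg' : Type*} [Finite Sg'] {π' : GQ →* Equiv.Perm Sg'} (hπ' : SmoothSet π' lvlQ)
  {j : Sg' → Sg} (hj : IsSetMap π π' j)

/-- pull back of global invariant functions -/
def pullG : EG π →+ EG π' := H0c (isHom_pull (gm alQ) hj)

@[simp] theorem vl_pullG (a : EG π) (s : Sg') : vl (pullG hj a) s = vl a (j s) := rfl

theorem kumG_pull (a : EG π) :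
    H1c lvlQ (isHom_pull (rhoT p) hj) (kumG p hπ a) = kumG p hπ' (pullG hj a) :=
  (kumData_Q p).kum_pull galAct_Q hπ hπ' hj a

end Kum

end Fermat.Agent.S55.D
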